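import Fermat.Agent.AV.SymFun
import Fermat.Agent.AV.Generic
import Mathlib.RingTheory.TensorProduct.MvPolynomial
import Mathlib.LinearAlgebra.Matrix.ToLinearEquiv

/-!
# Independent generic translations
-/

set_option autoImplicit false
set_option linter.unusedSectionVars false

noncomputable section

universe u

open CategoryTheory AlgebraicGeometry
open scoped TensorProduct

namespace Fermat.Agent.AV

variable {K : Type u} [Field K] {X : AbVar K}

/-! ### Functoriality -/

theorem dualMap_comp {R S T : Type u} [CommRing R] [Algebra K R] [CommRing S] [Algebra K S]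
    [CommRing T] [Algebra K T] (φ : R →ₐ[K] S) (ψ : S →ₐ[K] T) :
    (dualMap K ψ).comp (dualMap K φ) = dualMap K (ψ.comp φ) :=
  AlgHom.ext fun x => TrivSqZeroExt.ext (by simp [dualMap]) (by simp [dualMap])

theorem Tan.mapHom_mapHom {R S T : Type u} [CommRing R] [Algebra K R] [CommRing S] [Algebra K S]
    [CommRing T] [Algebra K T] (φ : R →ₐ[K] S) (ψ : S →ₐ[K] T) (τ : Tan X R) :
    Tan.mapHom ψ (Tan.mapHom φ τ) = Tan.mapHom (ψ.comp φ) τ := by
  refine Subtype.ext ?_
  show Pt.map (dualMap K ψ) (Pt.map (dualMap K φ) τ.1) = Pt.map (dualMap K (ψ.comp φ)) τ.1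
  rw [Pt.map_map, dualMap_comp]

theorem Tan.mapHom_id {R : Type u} [CommRing R] [Algebra K R] (τ : Tan X R) :
    Tan.mapHom (AlgHom.id K R) τ = τ := by
  refine Subtype.ext ?_
  show Pt.map (dualMap K (AlgHom.id K R)) τ.1 = τ.1
  rw [show dualMap K (AlgHom.id K R) = AlgHom.id K (Dual₁ R) from
    AlgHom.ext fun x => TrivSqZeroExt.ext (by simp [dualMap]) (by simp [dualMap]), Pt.map_id]

theorem dVal_congr {R : Type u} [CommRing R] [Algebra K R] (U : Chart X) {p q : Pt X R}
    (h : p = q) (hp : p.Mem U.1) (hq : q.Mem U.1) (b : Γ(X.carrier, U.1)) (τ : Tan X R) :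
    dVal U hp b τ = dVal U hq b τ := by subst h; rfl

/-- A point constant over `K` is defined over every intermediate field. -/
theorem map_const_mem_defPts {F : Type u} [Field F] [Algebra K F] (E : IntermediateField K F)
    (p : Pt X K) : Pt.map (Algebra.ofId K F) p ∈ defPts X E :=
  ⟨Pt.map (Algebra.ofId K E) p, by rw [Pt.map_map, Subsingleton.elim (E.val.comp _) _]⟩

variable [IsAlgClosed K]

/-- The image of the function field under the coordinates of a point defined over `E` is in `E`. -/
theorem range_subset_of_mem_defPts {F : Type u} [Field F] [Algebra K F] {E : IntermediateField K F}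
    (φ : FFld X →ₐ[K] F) (h : Pt.map φ (genPt X) ∈ defPts X E) (f : FFld X) : φ f ∈ E := by
  obtain ⟨U, hU⟩ := exists_generic_chart X
  obtain ⟨a, b, -, rfl⟩ := exists_eq_germ_div U hU f
  have e : ∀ c, φ (germAlg U.1 hU c) ∈ E := fun c => by
    have h1 := eval_mem_of_mem_defPts h ((genPt_mem U hU).map φ) c
    rw [Pt.eval_map φ (genPt X) U (genPt_mem U hU), genPt_eval U hU] at h1
    exact h1
  rw [map_div₀]
  exact div_mem (e a) (e b)

/-- A point whose field contains the image of the function field is defined there. -/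
theorem mem_defPts_of_range_subset {F : Type u} [Field F] [Algebra K F]
    {E : IntermediateField K F} (φ : FFld X →ₐ[K] F) (h : ∀ f, φ f ∈ E) :
    Pt.map φ (genPt X) ∈ defPts X E :=
  ⟨Pt.map (φ.codRestrict E.toSubalgebra h) (genPt X), by rw [Pt.map_map]; rfl⟩

/-! ### The generic extension -/

section GenF

variable (L : Type u) [Field L] [Algebra K L]

/-- Everything is algebraic over the field generated by constants and the generic point. -/
theorem GenF.isAlgebraic_of_subset (C : Subfield (GenF X L))
    (hc : ∀ c, algebraMap L (GenF X L) c ∈ C) (hg : ∀ f, genHom X L f ∈ C) (z : GenF X L) :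
    IsAlgebraic C z := by
  let A := FFld X ⊗[K] L
  have hA : ∀ t : A, toGenF X L t ∈ C := by
    intro t
    induction t using TensorProduct.induction_on with
    | zero => rw [map_zero]; exact zero_mem C
    | tmul f c =>
      rw [show f ⊗ₜ[K] c = f ⊗ₜ[K] (1 : L) * (1 : FFld X) ⊗ₜ[K] c by simp, map_mul]
      exact mul_mem (hg f) (hc c)
    | add a b ha hb => rw [map_add]; exact add_mem ha hb
  let ρ := algebraMap (FractionRing A) (AlgebraicClosure (FractionRing A))
  have hρ : ∀ q : FractionRing A, ρ q ∈ C := fun q => by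
    obtain ⟨a, b, -, rfl⟩ := IsFractionRing.div_surjective A (K := FractionRing A) q
    rw [map_div₀]
    exact div_mem (hA a) (hA b)
  let i : FractionRing A →+* C := ρ.codRestrict C hρ
  have hz : IsAlgebraic (FractionRing A) (id z : AlgebraicClosure (FractionRing A)) :=
    Algebra.IsAlgebraic.isAlgebraic _
  exact hz.ringHom_of_comp_eq (A := AlgebraicClosure (FractionRing A)) (B := GenF X L) i
    (RingHom.id (GenF X L)) i.injective (RingHom.ext fun _ => rfl)

/-- The coordinates of the generic point have full transcendence degree over the constants. -/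
theorem dim_le_trdeg_genF : (X.dim : Cardinal) ≤ Algebra.trdeg L (GenF X L) := by
  obtain ⟨U, hU, g, hg⟩ := exists_etale_chart X (genericPoint X.carrier)
  have hb := isTranscendenceBasis_etale U hU g hg
  set x := fun i => germAlg U.1 hU (g (MvPolynomial.X i))
  have hind : AlgebraicIndependent L fun i => genHom X L (x i) := by
    rw [algebraicIndependent_iff_injective_aeval]
    let ι : L ⊗[K] MvPolynomial (Fin X.dim) K →ₐ[K] FFld X ⊗[K] L :=
      (Algebra.TensorProduct.map (MvPolynomial.aeval x) (AlgHom.id K L)).comp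
        (Algebra.TensorProduct.comm K L _).toAlgHom
    have hι : Function.Injective ι :=
      (Module.Flat.rTensor_preserves_injective_linearMap (M := L)
        (MvPolynomial.aeval x).toLinearMap hb.1).comp
        (Algebra.TensorProduct.comm K L _).injective
    have e : ∀ p, MvPolynomial.aeval (fun i => genHom X L (x i)) p =
        toGenF X L (ι ((MvPolynomial.algebraTensorAlgEquiv K L).symm p)) := by
      intro p
      induction p using MvPolynomial.induction_on with
      | C a =>
        rw [MvPolynomial.aeval_C, show MvPolynomial.C a = algebraMap L _ a from rfl,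
          AlgEquiv.commutes]
        show _ = toGenF X L (ι (a ⊗ₜ 1))
        rw [show ι (a ⊗ₜ 1) = (MvPolynomial.aeval x 1) ⊗ₜ a from rfl, map_one]
        rfl
      | add p q hp hq => simp only [map_add, hp, hq]
      | mul_X p i hp =>
        simp only [map_mul, hp, MvPolynomial.aeval_X, MvPolynomial.algebraTensorAlgEquiv_symm_X]
        congr 1
        show _ = toGenF X L (MvPolynomial.aeval x (MvPolynomial.X i) ⊗ₜ 1)
        rw [MvPolynomial.aeval_X]
        rfl
    intro p q h
    rw [e, e] at h
    exact (MvPolynomial.algebraTensorAlgEquiv K L).symm.injective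
      (hι (toGenF_injective X L h))
  simpa using hind.lift_cardinalMk_le_trdeg

end GenF

/-! ### The matrix of differentials -/

section Mat

variable (U : Chart X) (s : Fin X.dim → Γ(X.carrier, U.1)) (e : Fin X.dim → Tan X K)
variable {R S : Type u} [CommRing R] [Algebra K R] [CommRing S] [Algebra K S]

/-- The matrix of differentials of the functions at given points. -/
def slotMat (a : Fin X.dim → Pt X R) (h : ∀ i, (a i).Mem U.1) :
    Matrix (Fin X.dim) (Fin X.dim) R :=
  fun i j => dVal U (h i) (s i) (Tan.mapHom (Algebra.ofId K R) (e j))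

theorem slotMat_congr {a a' : Fin X.dim → Pt X R} (he : a = a') (h : ∀ i, (a i).Mem U.1)
    (h' : ∀ i, (a' i).Mem U.1) : slotMat U s e a h = slotMat U s e a' h' := by subst he; rfl

theorem slotMat_map (φ : R →ₐ[K] S) (a : Fin X.dim → Pt X R) (h : ∀ i, (a i).Mem U.1) :
    slotMat U s e (fun i => Pt.map φ (a i)) (fun i => (h i).map φ) =
      (slotMat U s e a h).map φ := by
  refine Matrix.ext fun i j => ?_
  show dVal U _ (s i) _ = φ (dVal U (h i) (s i) _)
  rw [← dVal_mapHom U (h i) (s i) φ, Tan.mapHom_mapHom, Subsingleton.elim (φ.comp _) _]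

theorem det_slotMat_map {F : Type u} [Field F] [Algebra K F] {F' : Type u} [Field F'] [Algebra K F']
    (φ : F →ₐ[K] F') (a : Fin X.dim → Pt X F) (h : ∀ i, (a i).Mem U.1)
    (hdet : (slotMat U s e a h).det ≠ 0) :
    (slotMat U s e (fun i => Pt.map φ (a i)) (fun i => (h i).map φ)).det ≠ 0 := by
  rw [slotMat_map U s e φ a h, ← AlgHom.mapMatrix_apply, ← AlgHom.map_det]
  exact (map_ne_zero_iff φ φ.injective).mpr hdet

/-- Nonsingularity lifts along specialisation. -/
theorem det_slotMat_ne_zero_of_spec {L M : Type u} [Field L] [Field M] [Algebra K L] [Algebra K M]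
    [Algebra L M] [IsScalarTower K L M] (v : LPlace L M) (a : Fin X.dim → Pt X M)
    (b : Fin X.dim → Pt X L) (hab : ∀ i, v.spec (a i) = b i) (hb : ∀ i, (b i).Mem U.1)
    (hdet : (slotMat U s e b hb).det ≠ 0) :
    ∃ h : ∀ i, (a i).Mem U.1, (slotMat U s e a h).det ≠ 0 := by
  let y := fun i => v.kval.lift (a i)
  have e₁ : (fun i => Pt.map v.valueHom (y i)) = b := funext hab
  have e₂ : (fun i => Pt.map (v.kring (K := K)).val (y i)) = a :=
    funext fun i => v.kval.map_lift (a i)
  have hy : ∀ i, (y i).Mem U.1 := fun i =>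
    Pt.mem_of_mem_map v.valueHom (x := y i) ((congrFun e₁ i).symm ▸ hb i)
  refine ⟨fun i => (congrFun e₂ i) ▸ (hy i).map _, ?_⟩
  rw [← slotMat_congr U s e e₂ (fun i => (hy i).map _), slotMat_map U s e _ y hy,
    ← AlgHom.mapMatrix_apply, ← AlgHom.map_det]
  rw [← slotMat_congr U s e e₁ (fun i => (hy i).map _), slotMat_map U s e _ y hy,
    ← AlgHom.mapMatrix_apply, ← AlgHom.map_det] at hdet
  intro h0
  have : (slotMat U s e y hy).det = 0 := Subtype.ext h0
  exact hdet (by rw [this, map_zero])

/-- Nonsingularity means that the differentials detect tangent vectors. -/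
theorem eq_zero_of_det_ne_zero {F : Type u} [Field F] [Algebra K F]
    (hexp : ∀ (R : Type u) [CommRing R] [Algebra K R] (τ : Tan X R), ∃ c : Fin X.dim → R,
        τ = ∑ j, Tan.scale (c j) (Tan.mapHom (Algebra.ofId K R) (e j)))
    (a : Fin X.dim → Pt X F) (h : ∀ i, (a i).Mem U.1) (hdet : (slotMat U s e a h).det ≠ 0)
    (τ : Tan X F) (hτ : ∀ i, dVal U (h i) (s i) τ = 0) : τ = 0 := by
  obtain ⟨c, rfl⟩ := hexp F τ
  have hc : (slotMat U s e a h).mulVec c = 0 := funext fun i => by
    have h1 := hτ i
    rw [← dHom_apply, map_sum] at h1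
    simp only [dHom_apply, dVal_scale] at h1
    show ∑ j, slotMat U s e a h i j * c j = 0
    rw [← h1]
    exact Finset.sum_congr rfl fun j _ => mul_comm _ _
  have hc0 : c = 0 := Matrix.eq_zero_of_mulVec_eq_zero hdet hc
  subst hc0
  refine Finset.sum_eq_zero fun j _ => Tan.ext_dVal U (h j) fun b => ?_
  rw [dVal_scale, Pi.zero_apply, zero_mul, ← dHom_apply, map_zero]

end Mat

variable (X) in
/-- Generic translations with nonsingular differentials. -/
theorem exists_stage (U : Chart X) (s : Fin X.dim → Γ(X.carrier, U.1)) (e : Fin X.dim → Tan X K)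
    (p₀ : Pt X K) (hp : p₀.Mem U.1)
    (hdet₀ : (slotMat U s e (fun _ => p₀) (fun _ => hp)).det ≠ 0) :
    ∀ k ≤ X.dim, ∃ (L : Type u) (_ : Field L) (_ : Algebra K L) (_ : IsAlgClosed L)
      (a : Fin X.dim → Pt X L) (h : ∀ i, (a i).Mem U.1),
      (slotMat U s e a h).det ≠ 0 ∧ ((k * X.dim : ℕ) : Cardinal) ≤ Algebra.trdeg K L ∧
      (∀ E : IntermediateField K L, (∀ i, a i ∈ defPts X E) → Algebra.IsAlgebraic E L) ∧
      (∀ i : Fin X.dim, (i : ℕ) < k → ∃ φ, Pt.map φ (genPt X) = a i) ∧
      ∀ i : Fin X.dim, k ≤ (i : ℕ) → a i = Pt.map (Algebra.ofId K L) p₀ := by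
  intro k
  induction k with
  | zero =>
    intro _
    refine ⟨K, inferInstance, inferInstance, inferInstance, fun _ => p₀, fun _ => hp, hdet₀,
      by simp, fun E _ => ⟨fun z => ?_⟩, fun i hi => absurd hi (Nat.not_lt_zero _), fun i _ => ?_⟩
    · have hz : z ∈ E := E.algebraMap_mem z
      exact isAlgebraic_algebraMap (⟨z, hz⟩ : E)
    · rw [Subsingleton.elim (Algebra.ofId K K) (AlgHom.id K K), Pt.map_id]
  | succ k ih =>
    intro hk
    obtain ⟨L, _, _, _, a, h, hdet, htr, halg, hgen, hrest⟩ := ih (Nat.le_of_succ_le hk)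
    let k₀ : Fin X.dim := ⟨k, hk⟩
    let c : Pt X L →+ Pt X (GenF X L) := Pt.map (IsScalarTower.toAlgHom K L (GenF X L))
    obtain ⟨v, hv⟩ := exists_place_genP X L (a k₀)
    let a' : Fin X.dim → Pt X (GenF X L) := fun i => if i = k₀ then genP X L else c (a i)
    have hspec : ∀ i, v.spec (a' i) = a i := fun i => by
      by_cases hi : i = k₀
      · rw [show a' i = genP X L from if_pos hi, hv, hi]
      · rw [show a' i = c (a i) from if_neg hi, v.spec_map_const]
    obtain ⟨h', hdet'⟩ := det_slotMat_ne_zero_of_spec U s e v a' a hspec h hdet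
    refine ⟨GenF X L, inferInstance, inferInstance, inferInstance, a', h', hdet', ?_, ?_, ?_, ?_⟩
    · have h1 : Algebra.trdeg K L + Algebra.trdeg L (GenF X L) = Algebra.trdeg K (GenF X L) :=
        trdeg_add_eq K L
      rw [← h1, Nat.succ_mul, Nat.cast_add]
      exact add_le_add htr (dim_le_trdeg_genF L)
    · intro E hE
      have hg : ∀ f, genHom X L f ∈ E := range_subset_of_mem_defPts (genHom X L) (by
        have h1 := hE k₀
        rwa [show a' k₀ = genP X L from if_pos rfl] at h1)
      let ι := IsScalarTower.toAlgHom K L (GenF X L)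
      let E₀ : IntermediateField K L := E.comap ι
      have hE₀ : ∀ i, a i ∈ defPts X E₀ := fun i => by
        by_cases hi : i = k₀
        · rw [hrest i (by rw [hi])]; exact map_const_mem_defPts E₀ p₀
        · have h1 := hE i
          rw [show a' i = c (a i) from if_neg hi] at h1
          refine mem_defPts_of_eval (h i) fun b => ?_
          show ι ((a i).eval U (h i) b) ∈ E
          have h2 := eval_mem_of_mem_defPts h1 ((h i).map ι) b
          rwa [Pt.eval_map ι (a i) U (h i)] at h2
      have hL := halg E₀ hE₀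
      let C : IntermediateField K (GenF X L) := (algebraicClosure E (GenF X L)).restrictScalars K
      have hconst : ∀ z, ι z ∈ C := fun z => mem_algebraicClosure_iff.mpr
        ((hL.isAlgebraic z).ringHom_of_comp_eq
          ((ι.toRingHom.comp E₀.val.toRingHom).codRestrict E fun w => w.2 : E₀ →+* E)
          ι.toRingHom (RingHom.injective _) (RingHom.ext fun _ => rfl))
      have hgC : ∀ f, genHom X L f ∈ C := fun f =>
        mem_algebraicClosure_iff.mpr (isAlgebraic_algebraMap (⟨_, hg f⟩ : E))
      have : Algebra.IsAlgebraic (algebraicClosure E (GenF X L)) (GenF X L) := ⟨fun z =>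
        GenF.isAlgebraic_of_subset L (algebraicClosure E (GenF X L)).toSubfield hconst hgC z⟩
      exact Algebra.IsAlgebraic.trans E (algebraicClosure E (GenF X L)) (GenF X L)
    · intro i hi
      by_cases hik : i = k₀
      · exact ⟨genHom X L, (if_pos hik).symm⟩
      · obtain ⟨φ, hφ⟩ := hgen i (lt_of_le_of_ne (Nat.lt_succ_iff.mp hi)
          fun h => hik (Fin.ext h))
        refine ⟨(IsScalarTower.toAlgHom K L (GenF X L)).comp φ, ?_⟩
        rw [show a' i = c (a i) from if_neg hik, ← Pt.map_map, hφ]
    · intro i hi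
      have hik : i ≠ k₀ := fun h => by rw [h] at hi; exact Nat.not_succ_le_self k hi
      rw [show a' i = c (a i) from if_neg hik, hrest i (Nat.le_of_succ_le hi), Pt.map_map,
        Subsingleton.elim (AlgHom.comp _ _) _]

end Fermat.Agent.AV
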