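import Fermat.Agent.AV.Degree.Field
import Fermat.Agent.AV.Degree.Stage
import Fermat.Agent.AV.PencilHeight

/-!
# The base loci are avoided
-/

set_option autoImplicit false
set_option linter.unusedSectionVars false

noncomputable section

universe u

open CategoryTheory AlgebraicGeometry IntermediateField

namespace Fermat.Agent.AV

variable {K : Type u} [Field K] [IsAlgClosed K] {X : AbVar K}
variable {L : Type u} [Field L] [Algebra K L]

/-- Specialisations on a curve through generic translations avoid one base locus. -/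
theorem false_of_base {x : Fin X.dim → FFld X} (π : ∀ i, Pencil (x i)) (k : Fin X.dim)
    (N : Fin X.dim → ℕ) (q : Pt X L) (a : Fin X.dim → Pt X L) (z : Fin X.dim → L) (w : ℕ)
    (halg : ∀ E : IntermediateField K L, (∀ i, a i ∈ defPts X E) → (∀ i, i ≠ k → z i ∈ E) →
      Algebra.IsAlgebraic E L)
    (htr : ((X.dim * X.dim + X.dim : ℕ) : Cardinal) ≤ Algebra.trdeg K L + 1)
    (hval : ∀ i, i ≠ k → ∀ (j : Fin (π i).n) (h : (N i • q + a i).Mem ((π i).V j).1),
      (N i • q + a i).eval _ h ((π i).a j) = z i * (N i • q + a i).eval _ h ((π i).b j))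
    (hbase : (π k).IsBase (w • q + a k) ∨ (π k).IsBase (-(w • q + a k))) : False := by
  classical
  obtain ⟨Eq, hq, hqt⟩ := exists_defPts_trdeg_le q
  have hk : ∃ E : IntermediateField K L,
      Algebra.trdeg K E + 2 ≤ X.dim ∧ a k ∈ defPts X (Eq ⊔ E) := by
    have key : ∀ p : Pt X L, (π k).IsBase p →
        ∃ E : IntermediateField K L, Algebra.trdeg K E + 2 ≤ X.dim ∧ p ∈ defPts X E := by
      rintro p ⟨j, h, ha, hb⟩
      exact ⟨_, (π k).trdeg_base_le p j h ha hb,
        mem_defPts_of_eval h fun b => subset_adjoin _ _ ⟨b, rfl⟩⟩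
    obtain ⟨E, hE, hw⟩ : ∃ E : IntermediateField K L,
        Algebra.trdeg K E + 2 ≤ X.dim ∧ w • q + a k ∈ defPts X E := by
      rcases hbase with h | h
      · exact key _ h
      · obtain ⟨E, hE, hw⟩ := key _ h
        exact ⟨E, hE, neg_mem_iff.mp hw⟩
    refine ⟨E, hE, ?_⟩
    have h := sub_mem (defPts_mono (le_sup_right : E ≤ Eq ⊔ E) hw)
      (nsmul_mem (defPts_mono (le_sup_left : Eq ≤ Eq ⊔ E) hq) w)
    rwa [add_sub_cancel_left] at h
  obtain ⟨Ek, hEk, hak⟩ := hk
  have hg : 2 ≤ X.dim := by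
    have h : ((2 : ℕ) : Cardinal) ≤ X.dim := le_trans (by simp) hEk
    exact_mod_cast h
  let b : Fin X.dim → ℕ := fun i => if i = k then X.dim - 2 else X.dim
  have hex : ∀ i, ∃ E : IntermediateField K L, Algebra.trdeg K E ≤ b i ∧
      a i ∈ defPts X (Eq ⊔ E) ∧ (i ≠ k → z i ∈ Eq ⊔ E) := by
    intro i
    by_cases hi : i = k
    · subst hi
      refine ⟨Ek, ?_, hak, fun h => absurd rfl h⟩
      obtain ⟨m, hm⟩ := Cardinal.lt_aleph0.mp
        (lt_of_le_of_lt (le_self_add.trans hEk) (Cardinal.natCast_lt_aleph0 (n := X.dim)))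
      rw [hm] at hEk ⊢
      simp only [b, if_pos]
      norm_cast at hEk ⊢
      omega
    set r := N i • q + a i with hr
    by_cases hb : (π i).IsBase r
    · obtain ⟨j, h, ha, hb⟩ := hb
      set Er := IntermediateField.adjoin K (Set.range (r.eval _ h))
      refine ⟨Er ⊔ K⟮z i⟯, ?_, ?_, fun _ => (le_sup_right : Er ⊔ K⟮z i⟯ ≤ Eq ⊔ _)
        ((le_sup_right : K⟮z i⟯ ≤ Er ⊔ _) (mem_adjoin_simple_self K (z i)))⟩
      · refine (trdeg_sup_le _ _).trans ?_
        refine le_trans ?_ ((π i).trdeg_base_le r j h ha hb |>.trans_eq (by simp [b, hi]))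
        gcongr
        exact (trdeg_adjoin_simple_le (z i)).trans (by norm_num)
      · have hr' : r ∈ defPts X (Eq ⊔ (Er ⊔ K⟮z i⟯)) :=
          defPts_mono (le_sup_left.trans le_sup_right : Er ≤ Eq ⊔ (Er ⊔ K⟮z i⟯))
            (mem_defPts_of_eval h fun b => subset_adjoin _ _ ⟨b, rfl⟩)
        have h2 := sub_mem hr' (nsmul_mem (defPts_mono le_sup_left hq) (N i))
        rwa [hr, add_sub_cancel_left] at h2
    · obtain ⟨E, hE, hEt⟩ := exists_defPts_trdeg_le (a i)
      refine ⟨E, hEt.trans_eq (by simp [b, hi]), defPts_mono le_sup_right hE, fun _ => ?_⟩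
      obtain ⟨j, hj⟩ := (π i).cover r.pos
      have hmem : r.Mem ((π i).V j).1 := (Pt.mem_iff_pos r _).mpr hj
      have hrE : r ∈ defPts X (Eq ⊔ E) :=
        add_mem (nsmul_mem (defPts_mono le_sup_left hq) _) (defPts_mono le_sup_right hE)
      have h := hval i hi j hmem
      have hb0 : r.eval _ hmem ((π i).b j) ≠ 0 := by
        intro h0
        rcases ((π i).not_isBase_iff hmem).mp hb with h' | h'
        · exact h' (by rw [h, h0, mul_zero])
        · exact h' h0
      rw [eq_comm, ← eq_div_iff hb0] at h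
      rw [h]
      exact div_mem (eval_mem_of_mem_defPts hrE hmem _) (eval_mem_of_mem_defPts hrE hmem _)
  choose E hEb hEa hEz using hex
  let T : IntermediateField K L := Eq ⊔ Finset.univ.sup E
  have hle : ∀ i, Eq ⊔ E i ≤ T := fun i =>
    sup_le_sup_left (Finset.le_sup (Finset.mem_univ i)) _
  have hTalg := halg T (fun i => defPts_mono (hle i) (hEa i)) fun i hi => hle i (hEz i hi)
  have hT : Algebra.trdeg K T ≤ ((X.dim + ∑ i, b i : ℕ) : Cardinal) := by
    rw [Nat.cast_add]
    exact (trdeg_sup_le _ _).trans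
      (add_le_add hqt (trdeg_finset_sup_le Finset.univ E b fun i _ => hEb i))
  have hL : Algebra.trdeg K L = Algebra.trdeg K T := by
    rw [← trdeg_add_eq K T (A := L), trdeg_eq_zero (R := T), add_zero]
  rw [hL] at htr
  have h := htr.trans (add_le_add hT le_rfl)
  have hsum : ∑ i, b i + 2 = X.dim * X.dim := by
    rw [← Finset.add_sum_erase Finset.univ b (Finset.mem_univ k),
      Finset.sum_congr rfl fun i hi => if_neg (Finset.ne_of_mem_erase hi), Finset.sum_const,
      Finset.card_erase_of_mem (Finset.mem_univ k), Finset.card_univ, Fintype.card_fin, smul_eq_mul]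
    simp only [b, if_pos]
    obtain ⟨m, hm⟩ := Nat.exists_eq_add_of_le hg
    rw [hm, show 2 + m - 1 = m + 1 by omega, show 2 + m - 2 = m by omega]
    ring
  norm_cast at h
  omega

end Fermat.Agent.AV
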