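import Fermat.Agent.AV.Degree.Base
import Fermat.Agent.AV.Cube
import Fermat.Agent.FF.Curve

/-!
# The degree of one slot is quadratic in the multiplier
-/

set_option autoImplicit false
set_option linter.unusedSectionVars false

noncomputable section

universe u

open CategoryTheory AlgebraicGeometry IntermediateField AlgebraicCurve Fermat.Agent.FF
  Fermat.Agent.FF.ConstExt

namespace Fermat.Agent.AV

variable {K : Type u} [Field K] [IsAlgClosed K] {X : AbVar K}
variable {M Ω : Type u} [Field M] [Field Ω] [Algebra K M] [Algebra M Ω] [Algebra K Ω]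
  [IsScalarTower K M Ω]

/-- Constants algebraic over the data of all slots but one. -/
theorem isAlgebraic_of_defPts {L : Type u} [Field L] [Algebra K L] [Algebra M L]
    [IsScalarTower K M L] [Algebra.IsAlgebraic M L] (a : Fin X.dim → Pt X M) (k : Fin X.dim)
    (z : Fin X.dim → M)
    (halg : ∀ E : IntermediateField K M, (∀ i, a i ∈ defPts X E) → (∀ i, i ≠ k → z i ∈ E) →
      Algebra.IsAlgebraic E M)
    (E : IntermediateField K L)
    (ha : ∀ i, Pt.map (IsScalarTower.toAlgHom K M L) (a i) ∈ defPts X E)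
    (hz : ∀ i, i ≠ k → algebraMap M L (z i) ∈ E) : Algebra.IsAlgebraic E L := by
  let ι := IsScalarTower.toAlgHom K M L
  have hM := halg (E.comap ι) (fun i => by
    obtain ⟨U, hU⟩ := (a i).exists_chart
    refine mem_defPts_of_eval hU fun b => ?_
    show ι ((a i).eval U hU b) ∈ E
    have h2 := eval_mem_of_mem_defPts (ha i) (hU.map ι) b
    rwa [Pt.eval_map ι (a i) U hU] at h2) hz
  set C := algebraicClosure E L
  have hC : ∀ m, algebraMap M L m ∈ C := fun m => mem_algebraicClosure_iff.mpr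
    ((hM.isAlgebraic m).ringHom_of_comp_eq
      ((ι.toRingHom.comp (E.comap ι).val.toRingHom).codRestrict E fun w => w.2 :
        E.comap ι →+* E)
      ι.toRingHom (RingHom.injective _) (RingHom.ext fun _ => rfl))
  have : Algebra.IsAlgebraic C L := ⟨fun y => by
    have hy : IsAlgebraic M y := Algebra.IsAlgebraic.isAlgebraic y
    exact hy.ringHom_of_comp_eq ((algebraMap M L).codRestrict C hC) (RingHom.id L)
      (RingHom.injective _) (RingHom.ext fun _ => rfl)⟩
  exact Algebra.IsAlgebraic.trans E C L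

variable [IsAlgClosed Ω]

/-- Degrees over the closed constant field as relative degrees. -/
theorem finrank_adjoin_eq_relfinrank {L : Type u} [Field L] [Algebra L Ω]
    (G : IntermediateField L Ω) (z : G) :
    Module.finrank L⟮z⟯ G = relfinrank L⟮(z : Ω)⟯ G := by
  rw [← IntermediateField.relfinrank_top_right L⟮z⟯, ← relfinrank_map_map L⟮z⟯ ⊤ G.val,
    adjoin_map, Set.image_singleton, ← AlgHom.fieldRange_eq_map, fieldRange_val]
  rfl

/-- The degree of one slot is quadratic in the multiplier. -/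
theorem relfinrank_swap (F : IntermediateField M Ω) (S : Finset Ω)
    (hS : F = IntermediateField.adjoin M (S : Set Ω))
    (h : FFld X →ₐ[K] Ω) (hh : ∀ f, h f ∈ F)
    (ι : FFld X →ₐ[K] FFld X) (hι : Pt.map ι (genPt X) = -genPt X)
    (x : Fin X.dim → FFld X) (hx : ∀ i, ι (x i) = x i) (k : Fin X.dim) (N : Fin X.dim → ℕ)
    (a : Fin X.dim → Pt X M) (z : Fin X.dim → M)
    (hφ : ∀ i, i ≠ k → ∃ φ : FFld X →ₐ[K] Ω, Pt.map φ (genPt X) =
      N i • Pt.map h (genPt X) + Pt.map (IsScalarTower.toAlgHom K M Ω) (a i) ∧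
        φ (x i) = algebraMap M Ω (z i))
    (halg : ∀ E : IntermediateField K M, (∀ i, a i ∈ defPts X E) → (∀ i, i ≠ k → z i ∈ E) →
      Algebra.IsAlgebraic E M)
    (htr : ((X.dim * X.dim + X.dim : ℕ) : Cardinal) ≤ Algebra.trdeg K M + 1)
    (n : ℕ) (φ₁ φn : FFld X →ₐ[K] Ω)
    (hφ₁ : Pt.map φ₁ (genPt X) =
      1 • Pt.map h (genPt X) + Pt.map (IsScalarTower.toAlgHom K M Ω) (a k))
    (hφn : Pt.map φn (genPt X) =
      n • Pt.map h (genPt X) + Pt.map (IsScalarTower.toAlgHom K M Ω) (a k))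
    (h₁ : Transcendental M (φ₁ (x k))) (h₁F : φ₁ (x k) ∈ F)
    (hn : Transcendental M (φn (x k))) (hnF : φn (x k) ∈ F)
    [FiniteDimensional M⟮φ₁ (x k)⟯ (extendScalars (adjoin_simple_le_iff.mpr h₁F : _ ≤ F))]
    [Algebra.IsSeparable M⟮φ₁ (x k)⟯ (extendScalars (adjoin_simple_le_iff.mpr h₁F : _ ≤ F))]
    [FiniteDimensional M⟮φn (x k)⟯ (extendScalars (adjoin_simple_le_iff.mpr hnF : _ ≤ F))]
    [Algebra.IsSeparable M⟮φn (x k)⟯ (extendScalars (adjoin_simple_le_iff.mpr hnF : _ ≤ F))] :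
    relfinrank M⟮φn (x k)⟯ F = n ^ 2 * relfinrank M⟮φ₁ (x k)⟯ F := by
  classical
  set Lc : IntermediateField M Ω := acl
  have : IsAlgClosed Lc := IsAlgClosure.isAlgClosed M
  let G : IntermediateField Lc Ω := IntermediateField.adjoin Lc (S : Set Ω)
  have hG : G.restrictScalars M = F ⊔ Lc := by
    rw [restrictScalars_adjoin_eq_sup, ← hS, sup_comm]
  have hFG : ∀ y ∈ F, y ∈ G := fun y hy => hG.ge ((le_sup_left : F ≤ F ⊔ Lc) hy)
  have : IsScalarTower K Lc Ω := IsScalarTower.of_algebraMap_eq fun _ => rfl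
  have : IsScalarTower K Lc G := IsScalarTower.of_algebraMap_eq fun c => Subtype.ext
    (IsScalarTower.algebraMap_apply K Lc Ω c)
  let lift : ∀ φ : FFld X →ₐ[K] Ω, (∀ f, φ f ∈ G) → (FFld X →ₐ[K] G) := fun φ hφ =>
    { toFun := fun f => ⟨φ f, hφ f⟩
      map_one' := Subtype.ext (map_one φ)
      map_mul' := fun f f' => Subtype.ext (map_mul φ f f')
      map_zero' := Subtype.ext (map_zero φ)
      map_add' := fun f f' => Subtype.ext (map_add φ f f')
      commutes' := fun c => Subtype.ext ((φ.commutes c).trans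
        (IsScalarTower.algebraMap_apply K Lc Ω c)) }
  let v : G →ₐ[K] Ω :=
    { G.val.toRingHom with
      commutes' := fun c => (IsScalarTower.algebraMap_apply K Lc Ω c).symm }
  let Q : Pt X G := Pt.map (lift h fun f => hFG _ (hh f)) (genPt X)
  let A : Fin X.dim → Pt X Lc := fun i => Pt.map (IsScalarTower.toAlgHom K M Lc) (a i)
  let cG : Pt X Lc →+ Pt X G := Pt.map (IsScalarTower.toAlgHom K Lc G)
  have hv : ∀ (m : ℕ) (i : Fin X.dim), Pt.map v (m • Q + cG (A i)) =
      m • Pt.map h (genPt X) + Pt.map (IsScalarTower.toAlgHom K M Ω) (a i) := fun m i => by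
    rw [map_add, map_nsmul, Pt.map_map, Pt.map_map, Pt.map_map]
    congr 3
  have hinj : Function.Injective (Pt.map (X := X) v) :=
    Pt.map_injective_of_injective v v.injective
  have hQ : Pt.map h (genPt X) ∈ defPts X ((G.restrictScalars M).restrictScalars K) :=
    mem_defPts_of_range_subset h fun f => hFG _ (hh f)
  have hrange : ∀ (φ : FFld X →ₐ[K] Ω) (m : ℕ) (i : Fin X.dim), Pt.map φ (genPt X) =
      m • Pt.map h (genPt X) + Pt.map (IsScalarTower.toAlgHom K M Ω) (a i) → ∀ f, φ f ∈ G := by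
    intro φ m i e f
    refine range_subset_of_mem_defPts (E := (G.restrictScalars M).restrictScalars K) φ ?_ f
    rw [e]
    refine add_mem (nsmul_mem hQ m) ?_
    exact ⟨Pt.map ((IsScalarTower.toAlgHom K M Ω).codRestrict
      ((G.restrictScalars M).restrictScalars K).toSubalgebra
      fun c => (G.restrictScalars M).algebraMap_mem c) (a i), by rw [Pt.map_map]; rfl⟩
  have hlift : ∀ (φ : FFld X →ₐ[K] Ω) (m : ℕ) (i : Fin X.dim), Pt.map φ (genPt X) =
      m • Pt.map h (genPt X) + Pt.map (IsScalarTower.toAlgHom K M Ω) (a i) →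
      ∃ ψ : FFld X →ₐ[K] G, Pt.map ψ (genPt X) = m • Q + cG (A i) ∧ ∀ f, (ψ f : Ω) = φ f := by
    intro φ m i e
    refine ⟨lift φ (hrange φ m i e), hinj ?_, fun f => rfl⟩
    rw [hv, ← e, Pt.map_map]
    rfl
  let π := fun i => (exists_pencil (x i)).some
  have hS' : (S : Set Ω).Finite := S.finite_toSet
  have hsub : ∀ (w : Ω), Transcendental M w → Transcendental Lc w := fun w hw hw' =>
    hw (hw'.restrictScalars M)
  have hFF : IsFunctionField Lc G := by
    refine IsFunctionField.of_adjoin (K := Lc) hS' (hFG _ h₁F) (hsub _ h₁) fun y hy => ?_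
    have hyF : y ∈ F := hS ▸ subset_adjoin M _ hy
    have hy1 : IsAlgebraic M⟮φ₁ (x k)⟯ y := (isAlgebraic_algHom_iff
      (extendScalars (adjoin_simple_le_iff.mpr h₁F : M⟮φ₁ (x k)⟯ ≤ F)).val
      (RingHom.injective _)).mpr (Algebra.IsAlgebraic.isAlgebraic
        (⟨y, hyF⟩ : extendScalars (adjoin_simple_le_iff.mpr h₁F : M⟮φ₁ (x k)⟯ ≤ F)))
    have hle : M⟮φ₁ (x k)⟯ ≤ (Lc⟮φ₁ (x k)⟯).restrictScalars M :=
      adjoin_simple_le_iff.mpr (mem_adjoin_simple_self Lc _)
    exact hy1.ringHom_of_comp_eq (IntermediateField.inclusion hle).toRingHom (RingHom.id Ω)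
      (RingHom.injective _) (RingHom.ext fun _ => rfl)
  have hbase : ∀ (P : Place Lc G) (w : ℕ),
      ¬ ((π k).IsBase ((toLP P).spec (w • Q + cG (A k))) ∨
        (π k).IsBase (-(toLP P).spec (w • Q + cG (A k)))) := by
    intro P w hb
    set q := (toLP P).spec Q
    have hs : ∀ m i, (toLP P).spec (m • Q + cG (A i)) = m • q + A i := fun m i => by
      rw [map_add, map_nsmul, (toLP P).spec_map_const]
    rw [hs] at hb
    refine false_of_base π k N q A (fun i => algebraMap M Lc (z i)) w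
      (fun E ha hz => isAlgebraic_of_defPts a k z halg E ha hz) ?_ (fun i hi j hj => ?_) hb
    · refine htr.trans (add_le_add ?_ le_rfl)
      exact trdeg_le_of_injective (IsScalarTower.toAlgHom K M Lc) (RingHom.injective _)
    obtain ⟨φ, hφg, hφx⟩ := hφ i hi
    obtain ⟨ψ, hψ, hψv⟩ := hlift φ (N i) i hφg
    have hj' : ((toLP P).spec (Pt.map ψ (genPt X))).Mem ((π i).V j).1 := by
      rw [hψ, hs]; exact hj
    obtain ⟨hma, hva⟩ := (toLP P).eval_mem_and_value hj' ((π i).a j)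
    obtain ⟨hmb, hvb⟩ := (toLP P).eval_mem_and_value hj' ((π i).b j)
    have hzr : algebraMap Lc G (algebraMap M Lc (z i)) ∈ (toLP P).ring :=
      (toLP P).algebraMap_mem _
    have e : (⟨_, hma⟩ : (toLP P).ring) = ⟨_, hzr⟩ * ⟨_, hmb⟩ := by
      refine Subtype.ext (((π i).eval_map_genPt ψ j _).trans ?_)
      refine Eq.trans ?_ (congrArg (algebraMap Lc G (algebraMap M Lc (z i)) * ·)
        ((π i).eval_map_genPt ψ j ((π i).b j)).symm)
      rw [(π i).eq, map_mul]
      congr 1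
      refine Subtype.ext ?_
      rw [hψv, hφx]
      rfl
    rw [← Pt.eval_congr_left _ (hψ ▸ hs (N i) i) hj' hj, ← hva, e, map_mul, hvb,
      (toLP P).value_algebraMap]
  let cQ : Pt X G := Q
  set c := (π k).cocycle
  have hD : ∀ (φ : FFld X →ₐ[K] Ω) (m : ℕ), Pt.map φ (genPt X) =
      m • Pt.map h (genPt X) + Pt.map (IsScalarTower.toAlgHom K M Ω) (a k) →
      Transcendental M (φ (x k)) →
      (relfinrank (M⟮φ (x k)⟯ ⊔ Lc) (F ⊔ Lc) : ℤ) = -ht Lc c (m • cQ) ∧
      (relfinrank (M⟮φ (x k)⟯ ⊔ Lc) (F ⊔ Lc) : ℤ) = -ht Lc c (-(m • cQ)) ∧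
      0 < relfinrank (M⟮φ (x k)⟯ ⊔ Lc) (F ⊔ Lc) := by
    intro φ m e hw
    obtain ⟨ψ, hψ, hψv⟩ := hlift φ m k e
    have htrG : Transcendental Lc (ψ (x k)) := fun halg' =>
      hsub _ hw (hψv (x k) ▸ (isAlgebraic_algHom_iff G.val (RingHom.injective _)).mpr halg')
    have hdeg : (relfinrank (M⟮φ (x k)⟯ ⊔ Lc) (F ⊔ Lc) : ℤ) =
        Divisor.degree (poleDivisor Lc (ψ (x k))) := by
      rw [degree_poleDivisor htrG, finrank_adjoin_eq_relfinrank G (ψ (x k)), hψv, ← hG]
      have hA : M⟮φ (x k)⟯ ⊔ Lc = (Lc⟮φ (x k)⟯).restrictScalars M := by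
        rw [restrictScalars_adjoin_eq_sup, sup_comm]
      rw [hA]
      rfl
    have hneg : Pt.map (ψ.comp ι) (genPt X) = -(m • cQ + cG (A k)) := by
      rw [← Pt.map_map, hι, map_neg, hψ]
    refine ⟨?_, ?_, ?_⟩
    · rw [hdeg, (π k).degree_poleDivisor_map ψ (fun P hP => hbase P m (Or.inl (hψ ▸ hP))), hψ,
        ht_add_const]
    · rw [hdeg]
      conv_lhs => rw [← hx k]
      rw [show ψ (ι (x k)) = (ψ.comp ι) (x k) from rfl,
        (π k).degree_poleDivisor_map (ψ.comp ι) (fun P hP => hbase P m (Or.inr (by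
          rw [hneg, map_neg] at hP; exact hP))), hneg, neg_add, ← map_neg cG, ht_add_const]
    · have hA : M⟮φ (x k)⟯ ⊔ Lc = (Lc⟮φ (x k)⟯).restrictScalars M := by
        rw [restrictScalars_adjoin_eq_sup, sup_comm]
      rw [hA, ← hG]
      show 0 < relfinrank Lc⟮φ (x k)⟯ G
      rw [← hψv, ← finrank_adjoin_eq_relfinrank G (ψ (x k))]
      have := Fermat.Agent.FF.finiteDimensional_adjoin htrG
      exact Module.finrank_pos
  obtain ⟨e1, e1', hpos⟩ := hD φ₁ 1 hφ₁ h₁
  obtain ⟨en, -, -⟩ := hD φn n hφn hn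
  rw [one_smul] at e1 e1'
  rw [ht_nsmul c cQ (by omega) n, ← mul_neg, ← e1] at en
  have hR := relfinrank_ratio F h₁ hn h₁F hnF
  have en' : relfinrank (M⟮φn (x k)⟯ ⊔ Lc) (F ⊔ Lc) =
      n ^ 2 * relfinrank (M⟮φ₁ (x k)⟯ ⊔ Lc) (F ⊔ Lc) := by exact_mod_cast en
  rw [en'] at hR
  refine Nat.eq_of_mul_eq_mul_right hpos ?_
  rw [← hR]
  ring

end Fermat.Agent.AV
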