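import Fermat.Agent.AV.Degree.Kernel
import Fermat.Agent.AV.Degree.Swap

/-!
# The number of torsion points
-/

set_option autoImplicit false
set_option linter.unusedSectionVars false

noncomputable section

universe u

open CategoryTheory AlgebraicGeometry IntermediateField

namespace Fermat.Agent.AV

/-- Fields with the same elements give the same finiteness and separability. -/
theorem finite_separable_of_restrictScalars_eq {L Ω : Type u} [Field L] [Field Ω] [Algebra L Ω]
    {A B : IntermediateField L Ω} (hAB : A ≤ B) {M : IntermediateField L Ω}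
    (A' B' : IntermediateField M Ω) (hA : A'.restrictScalars L = A) (hB : B'.restrictScalars L = B)
    (hAB' : A' ≤ B') (hfin : FiniteDimensional A (extendScalars hAB))
    (hsep : Algebra.IsSeparable A (extendScalars hAB)) :
    FiniteDimensional A' (extendScalars hAB') ∧ Algebra.IsSeparable A' (extendScalars hAB') := by
  let e₁ : A ≃+* A' :=
    { toFun := fun x => ⟨x.1, hA.ge x.2⟩
      invFun := fun x => ⟨x.1, hA.le x.2⟩
      left_inv := fun _ => rfl
      right_inv := fun _ => rfl
      map_mul' := fun _ _ => rfl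
      map_add' := fun _ _ => rfl }
  let e₂ : extendScalars hAB ≃+* extendScalars hAB' :=
    { toFun := fun x => ⟨x.1, hB.ge x.2⟩
      invFun := fun x => ⟨x.1, hB.le x.2⟩
      left_inv := fun _ => rfl
      right_inv := fun _ => rfl
      map_mul' := fun _ _ => rfl
      map_add' := fun _ _ => rfl }
  exact ⟨Module.Finite.of_equiv_equiv e₁ e₂ (RingHom.ext fun _ => rfl),
    Algebra.IsSeparable.of_equiv_equiv e₁ e₂ (RingHom.ext fun _ => rfl)⟩

variable {K : Type u} [Field K] [IsAlgClosed K] {X : AbVar K}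
variable {L₀ : Type u} [Field L₀] [Algebra K L₀] [IsAlgClosed L₀]

namespace Rig

variable (r : Rig X L₀)

theorem relfinrank_zFld_pos (N : Fin X.dim → ℕ) (hN : ∀ i, (N i : K) ≠ 0) :
    0 < relfinrank (r.zFld N) (Fq X L₀) := by
  obtain ⟨_, -⟩ := r.finite_separable N hN
  rw [relfinrank_eq_finrank_of_le (r.zFld_le N)]
  exact Module.finrank_pos

set_option linter.unusedVariables false in
/-- Changing one slot multiplies the degree by a square. -/
theorem relfinrank_update (N : Fin X.dim → ℕ) (hN : ∀ i, (N i : K) ≠ 0) (k : Fin X.dim) (n : ℕ)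
    (hn : (n : K) ≠ 0) :
    relfinrank (r.zFld (Function.update N k n)) (Fq X L₀) =
      n ^ 2 * relfinrank (r.zFld (Function.update N k 1)) (Fq X L₀) := by
  classical
  let T : Set (GenF X L₀) := (fun i => r.z (N i) i) '' {i | i ≠ k}
  set M₀ := IntermediateField.adjoin L₀ T
  have hMF : M₀ ≤ Fq X L₀ := by
    refine adjoin_le_iff.mpr ?_
    rintro _ ⟨i, -, rfl⟩
    exact r.z_mem (r.slot_mem_defPts genP_mem_defPts _ _)
  have : IsScalarTower K M₀ (GenF X L₀) := IsScalarTower.of_algebraMap_eq fun _ => rfl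
  have : IsScalarTower K L₀ M₀ := IsScalarTower.of_algebraMap_eq fun c => Subtype.ext
    (IsScalarTower.algebraMap_apply K L₀ (GenF X L₀) c)
  set F : IntermediateField M₀ (GenF X L₀) := extendScalars hMF
  obtain ⟨S, -, hS⟩ := exists_generators X L₀
  have hFS : F = IntermediateField.adjoin M₀ (S : Set (GenF X L₀)) := by
    refine restrictScalars_injective L₀ ?_
    rw [extendScalars_restrictScalars, restrictScalars_adjoin_eq_sup, ← hS]
    exact (sup_eq_right.mpr hMF).symm
  have hzM : ∀ i, i ≠ k → r.z (N i) i ∈ M₀ := fun i hi => subset_adjoin L₀ T ⟨i, hi, rfl⟩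
  let z : Fin X.dim → M₀ := fun i => if hi : i = k then 0 else ⟨r.z (N i) i, hzM i hi⟩
  let x : Fin X.dim → FFld X := fun i => germAlg r.U.1 r.hU (r.s i)
  let a : Fin X.dim → Pt X M₀ := fun i => Pt.map (IsScalarTower.toAlgHom K L₀ M₀) (r.a i)
  have ha : ∀ i, Pt.map (IsScalarTower.toAlgHom K M₀ (GenF X L₀)) (a i) = cst X L₀ (r.a i) :=
    fun i => by
      rw [Pt.map_map]
      rfl
  have hupd : ∀ (m : ℕ) (i : Fin X.dim), (m : K) ≠ 0 → (Function.update N k m i : K) ≠ 0 := fun m i hm => by
    by_cases hi : i = k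
    · subst hi; rwa [Function.update_self]
    · rw [Function.update_of_ne hi]; exact hN i
  have key : ∀ m : ℕ, (m : K) ≠ 0 → ∃ φ : FFld X →ₐ[K] GenF X L₀,
      Pt.map φ (genPt X) = m • Pt.map (genHom X L₀) (genPt X) +
        Pt.map (IsScalarTower.toAlgHom K M₀ (GenF X L₀)) (a k) ∧
      Transcendental M₀ (φ (x k)) ∧
      ∃ hmF : φ (x k) ∈ F,
        (FiniteDimensional M₀⟮φ (x k)⟯ (extendScalars (adjoin_simple_le_iff.mpr hmF : _ ≤ F)) ∧
          Algebra.IsSeparable M₀⟮φ (x k)⟯
            (extendScalars (adjoin_simple_le_iff.mpr hmF : _ ≤ F))) ∧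
        relfinrank M₀⟮φ (x k)⟯ F = relfinrank (r.zFld (Function.update N k m)) (Fq X L₀) := by
    intro m hm
    obtain ⟨φ, hφ⟩ := r.exists_slotHom m k
    have hx : φ (x k) = r.z m k := r.slotHom_x hφ
    have hb := r.isTranscendenceBasis_z _ fun i => hupd m i hm
    have hT : (fun i => r.z (Function.update N k m i) i) '' {i | i ≠ k} = T :=
      Set.image_congr fun i hi => by rw [Function.update_of_ne hi]
    have htr : Transcendental M₀ (φ (x k)) := by
      have h := hb.1.transcendental_adjoin (s := {i | i ≠ k}) (i := k) (fun h => h rfl)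
      rw [hT, Function.update_self] at h
      rw [hx]
      exact transcendental_adjoin_iff.mpr h
    have hmem : φ (x k) ∈ F := by
      rw [hx]
      exact (mem_extendScalars hMF).mpr (r.z_mem (r.slot_mem_defPts genP_mem_defPts m k))
    have hres : (M₀⟮φ (x k)⟯).restrictScalars L₀ = r.zFld (Function.update N k m) := by
      rw [restrictScalars_adjoin_eq_sup, hx, zFld, ← adjoin_union]
      congr 1
      rw [← hT]
      refine Set.ext fun y => ⟨?_, ?_⟩
      · rintro (⟨i, -, rfl⟩ | hy)
        · exact ⟨i, rfl⟩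
        · exact ⟨k, by rw [Set.mem_singleton_iff.mp hy]; simp⟩
      · rintro ⟨i, rfl⟩
        by_cases hi : i = k
        · subst hi; exact Or.inr (by simp)
        · exact Or.inl ⟨i, hi, rfl⟩
    obtain ⟨hf, hs⟩ := r.finite_separable _ fun i => hupd m i hm
    refine ⟨φ, ?_, htr, hmem, finite_separable_of_restrictScalars_eq (r.zFld_le _) _ F hres rfl _
      hf hs, ?_⟩
    · rw [ha, hφ]; rfl
    · rw [← hres]; rfl
  obtain ⟨φn, hφn, htn, hnF, ⟨_, _⟩, hen⟩ := key n hn
  obtain ⟨φ₁, hφ₁, ht₁, h₁F, ⟨_, _⟩, he₁⟩ := key 1 (by simp)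
  rw [← hen, ← he₁]
  refine relfinrank_swap F S hFS (genHom X L₀) (fun f => (mem_extendScalars hMF).mpr
    (genHom_mem_Fq f)) r.ι r.neg x r.sym k N a z (fun i hi => ?_) ?_ ?_ n φ₁ φn hφ₁ hφn
    ht₁ h₁F htn hnF
  · obtain ⟨φ, hφ⟩ := r.exists_slotHom (N i) i
    refine ⟨φ, by rw [hφ, ha]; rfl, ?_⟩
    rw [show z i = ⟨r.z (N i) i, hzM i hi⟩ from dif_neg hi]
    exact r.slotHom_x hφ
  · intro E hEa hEz
    let ι := IsScalarTower.toAlgHom K L₀ M₀
    have hL := r.alg (E.comap ι) fun i => mem_defPts_of_eval (r.mem i) fun b => by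
      show ι ((r.a i).eval r.U (r.mem i) b) ∈ E
      have h2 := eval_mem_of_mem_defPts (hEa i) ((r.mem i).map ι) b
      rwa [Pt.eval_map ι (r.a i) r.U (r.mem i)] at h2
    set C := algebraicClosure E M₀
    have hc : ∀ c, ι c ∈ C := fun c => mem_algebraicClosure_iff.mpr
      ((hL.isAlgebraic c).ringHom_of_comp_eq
        ((ι.toRingHom.comp (E.comap ι).val.toRingHom).codRestrict E fun w => w.2 :
          E.comap ι →+* E)
        ι.toRingHom (RingHom.injective _) (RingHom.ext fun _ => rfl))
    refine ⟨fun y => mem_algebraicClosure_iff.mp ?_⟩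
    obtain ⟨y, hy⟩ := y
    induction hy using IntermediateField.adjoin_induction with
    | mem y hy =>
      obtain ⟨i, hi, rfl⟩ := hy
      refine mem_algebraicClosure_iff.mpr (isAlgebraic_algebraMap
        (⟨⟨_, hzM i hi⟩, ?_⟩ : E))
      have h := hEz i hi
      rwa [show z i = ⟨r.z (N i) i, hzM i hi⟩ from dif_neg hi] at h
    | algebraMap c => exact hc c
    | add y w hy hw h1 h2 => exact add_mem (s := C) h1 h2
    | inv y hy h1 => exact inv_mem (s := C) h1
    | mul y w hy hw h1 h2 => exact mul_mem (s := C) h1 h2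
  · have hb := (r.isTranscendenceBasis_z N hN).1.comp
      (Subtype.val : {i // i ≠ k} → Fin X.dim) Subtype.val_injective
    have hind : AlgebraicIndependent L₀ fun i : {i // i ≠ k} =>
        (⟨r.z (N i) i, hzM i i.2⟩ : M₀) := AlgebraicIndependent.of_comp M₀.val hb
    have h1 : ((X.dim - 1 : ℕ) : Cardinal) ≤ Algebra.trdeg L₀ M₀ := by
      simpa [Fintype.card_subtype_compl] using hind.lift_cardinalMk_le_trdeg
    rw [← trdeg_add_eq K L₀ (A := M₀)]
    refine le_trans ?_ (add_le_add (add_le_add r.trdeg h1) le_rfl)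
    norm_cast
    have := k.isLt
    omega

/-- The degree with all slots multiplied. -/
theorem relfinrank_all (n : ℕ) (hn : (n : K) ≠ 0) :
    relfinrank (r.zFld fun _ => n) (Fq X L₀) =
      n ^ (2 * X.dim) * relfinrank (r.zFld fun _ => 1) (Fq X L₀) := by
  classical
  suffices h : ∀ s : Finset (Fin X.dim),
      relfinrank (r.zFld fun i => if i ∈ s then n else 1) (Fq X L₀) =
        n ^ (2 * s.card) * relfinrank (r.zFld fun _ => 1) (Fq X L₀) by
    simpa using h Finset.univ
  intro s
  induction s using Finset.induction_on with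
  | empty => simp
  | insert k s hk ih =>
    set N := fun i => if i ∈ s then n else 1
    have hN : ∀ i, (N i : K) ≠ 0 := fun i => by
      simp only [N]; split_ifs <;> simp [hn]
    have e1 : (fun i => if i ∈ insert k s then n else 1) = Function.update N k n := by
      funext i
      by_cases hi : i = k
      · subst hi; simp
      · simp [hi, N]
    have e2 : Function.update N k 1 = N := by
      funext i
      by_cases hi : i = k
      · subst hi; simp [N, hk]
      · simp [hi]
    rw [e1, r.relfinrank_update N hN k n hn, e2, ih, Finset.card_insert_of_notMem hk]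
    ring

end Rig

variable (X) in
/-- An abelian variety of dimension `g` has `n ^ (2 * g)` points killed by `n`. -/
theorem natCard_torsion {n : ℕ} (hn : (n : K) ≠ 0) :
    Nat.card {k : Pt X K // n • k = 0} = n ^ (2 * X.dim) := by
  obtain ⟨L, _, _, _, ⟨r⟩⟩ := exists_rig X
  refine Nat.eq_of_mul_eq_mul_left (r.relfinrank_zFld_pos (fun _ => 1) fun _ => by simp) ?_
  rw [← r.relfinrank_zFld_mul hn, r.relfinrank_all n hn, mul_comm]

end Fermat.Agent.AV
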