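import Fermat.Agent.FF.Degree
import Mathlib.FieldTheory.Relrank
import Mathlib.FieldTheory.LinearDisjoint
import Mathlib.FieldTheory.PrimitiveElement
import Mathlib.RingTheory.Unramified.Field

/-!
# Field theory for the degree count
-/

set_option autoImplicit false
set_option linter.unusedSectionVars false

noncomputable section

universe u

open IntermediateField

namespace Fermat.Agent.AV

section Unramified

variable {E F : Type u} [Field E] [Field F] [Algebra E F]

/-- Without derivations a finitely generated extension is finite and separable. -/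
theorem finite_separable_of_derivation [Algebra.EssFiniteType E F]
    (h : ∀ δ : Derivation E F F, δ = 0) :
    FiniteDimensional E F ∧ Algebra.IsSeparable E F := by
  have hsub : Subsingleton Ω[F⁄E] := by
    refine subsingleton_of_forall_eq 0 fun x => ?_
    refine (Module.forall_dual_apply_eq_zero_iff F x).mp fun φ => ?_
    have hd := h (φ.compDer (KaehlerDifferential.D E F))
    induction (KaehlerDifferential.span_range_derivation E F).ge (Submodule.mem_top (x := x))
      using Submodule.span_induction with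
    | mem y hy =>
      obtain ⟨a, rfl⟩ := hy
      exact DFunLike.congr_fun hd a
    | zero => exact map_zero φ
    | add a b _ _ ha hb => rw [map_add, ha, hb, add_zero]
    | smul c a _ ha => rw [map_smul, ha, smul_zero]
  have : Algebra.FormallyUnramified E F := ⟨hsub⟩
  exact ⟨Algebra.FormallyUnramified.finite_of_free E F,
    Algebra.FormallyUnramified.isSeparable E F⟩

end Unramified

section Trdeg

variable {K Ω : Type u} [Field K] [Field Ω] [Algebra K Ω]

/-- A field algebraic over `K(T)` has transcendence degree at most `#T`. -/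
theorem trdeg_le_of_isAlgebraic (A : IntermediateField K Ω) (T : Set Ω)
    (h : ∀ a ∈ A, IsAlgebraic (adjoin K T) a) : Algebra.trdeg K A ≤ Cardinal.mk T := by
  let C : IntermediateField K Ω := (algebraicClosure (adjoin K T) Ω).restrictScalars K
  have hAC : A ≤ C := fun a ha => mem_algebraicClosure_iff.mpr (h a ha)
  have hT : T ⊆ C := fun t ht => mem_algebraicClosure_iff.mpr
    (isAlgebraic_algebraMap (⟨t, subset_adjoin K T ht⟩ : adjoin K T))
  let T' : Set C := Subtype.val ⁻¹' T
  have hT' : C.val '' T' = T := Set.image_preimage_eq_of_subset fun t ht => ⟨⟨t, hT ht⟩, rfl⟩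
  have hadj : (adjoin K T').map C.val = adjoin K T := by rw [adjoin_map, hT']
  have halg : Algebra.IsAlgebraic (adjoin K T') C := by
    refine ⟨fun c => ?_⟩
    let e : adjoin K T' ≃+* adjoin K T :=
      ((adjoin K T').equivMap C.val |>.trans (equivOfEq hadj)).toRingEquiv
    exact IsAlgebraic.of_ringHom_of_comp_eq (e : adjoin K T' →+* adjoin K T)
      (C.val : C →+* Ω) (mem_algebraicClosure_iff.mp c.2) e.surjective C.val.injective
      (RingHom.ext fun _ => rfl)
  have halg' : Algebra.IsAlgebraic (Algebra.adjoin K T') C := isAlgebraic_adjoin_iff_top.mp halg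
  calc Algebra.trdeg K A ≤ Algebra.trdeg K C :=
        trdeg_le_of_injective (IntermediateField.inclusion hAC) (inclusion hAC).injective
    _ ≤ Cardinal.mk T' := Algebra.IsAlgebraic.trdeg_le_cardinalMk K T'
    _ ≤ Cardinal.mk T := Cardinal.mk_le_of_injective
        (f := fun t : T' => (⟨(t : C), t.2⟩ : T)) fun a b hab => by
          exact Subtype.ext (Subtype.ext (congrArg (fun t : T => (t : Ω)) hab))

theorem exists_isAlgebraic_adjoin (A : IntermediateField K Ω) :
    ∃ T : Set Ω, Cardinal.mk T = Algebra.trdeg K A ∧ ∀ a ∈ A, IsAlgebraic (adjoin K T) a := by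
  obtain ⟨s, hs⟩ := exists_isTranscendenceBasis K A
  refine ⟨Subtype.val '' s, ?_, fun a ha => ?_⟩
  · rw [Cardinal.mk_image_eq Subtype.val_injective, hs.cardinalMk_eq_trdeg]
  have h1 : Algebra.IsAlgebraic (adjoin K (Set.range ((↑) : s → A))) A := hs.isAlgebraic_field
  rw [Subtype.range_coe] at h1
  have hadj : (adjoin K s).map A.val = adjoin K (Subtype.val '' s) := by rw [adjoin_map]; rfl
  let e : adjoin K s →+* adjoin K (Subtype.val '' s) :=
    ((adjoin K s).equivMap A.val |>.trans (equivOfEq hadj)).toRingEquiv.toRingHom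
  exact (h1.isAlgebraic ⟨a, ha⟩).ringHom_of_comp_eq e (A.val : A →+* Ω) e.injective
    (RingHom.ext fun _ => rfl)

/-- Transcendence degrees are subadditive in composita. -/
theorem trdeg_sup_le (A B : IntermediateField K Ω) :
    Algebra.trdeg K (A ⊔ B : IntermediateField K Ω) ≤ Algebra.trdeg K A + Algebra.trdeg K B := by
  obtain ⟨S, hS, hSA⟩ := exists_isAlgebraic_adjoin A
  obtain ⟨T, hT, hTB⟩ := exists_isAlgebraic_adjoin B
  refine (trdeg_le_of_isAlgebraic (A ⊔ B) (S ∪ T) fun a ha => ?_).trans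
    ((Cardinal.mk_union_le S T).trans_eq (by rw [hS, hT]))
  let C : IntermediateField K Ω := (algebraicClosure (adjoin K (S ∪ T)) Ω).restrictScalars K
  have key : ∀ (D : Set Ω) (hD : D ⊆ S ∪ T) (D' : IntermediateField K Ω),
      (∀ d ∈ D', IsAlgebraic (adjoin K D) d) → D' ≤ C := by
    intro D hD D' h d hd
    let i : adjoin K D →+* adjoin K (S ∪ T) :=
      (IntermediateField.inclusion (adjoin.mono K _ _ hD)).toRingHom
    exact mem_algebraicClosure_iff.mpr
      ((h d hd).ringHom_of_comp_eq i (RingHom.id Ω) i.injective (RingHom.ext fun _ => rfl))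
  exact mem_algebraicClosure_iff.mp
    (sup_le (key S Set.subset_union_left A hSA) (key T Set.subset_union_right B hTB) ha)

theorem trdeg_bot : Algebra.trdeg K (⊥ : IntermediateField K Ω) = 0 := by
  refine le_antisymm ((trdeg_le_of_isAlgebraic ⊥ ∅ fun a ha => ?_).trans_eq (by simp)) bot_le
  rw [IntermediateField.mem_bot] at ha
  obtain ⟨c, rfl⟩ := ha
  rw [IsScalarTower.algebraMap_apply K (adjoin K (∅ : Set Ω)) Ω]
  exact isAlgebraic_algebraMap _

theorem trdeg_adjoin_simple_le (z : Ω) : Algebra.trdeg K K⟮z⟯ ≤ 1 := by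
  refine (trdeg_le_of_isAlgebraic K⟮z⟯ {z} fun a ha => ?_).trans_eq (Cardinal.mk_singleton z)
  exact isAlgebraic_algebraMap (⟨a, ha⟩ : K⟮z⟯)

theorem trdeg_finset_sup_le {ι : Type*} (s : Finset ι) (A : ι → IntermediateField K Ω) (b : ι → ℕ)
    (h : ∀ i ∈ s, Algebra.trdeg K (A i) ≤ b i) :
    Algebra.trdeg K (s.sup A : IntermediateField K Ω) ≤ ((∑ i ∈ s, b i : ℕ) : Cardinal) := by
  classical
  induction s using Finset.induction_on with
  | empty => rw [Finset.sup_empty, Finset.sum_empty, Nat.cast_zero, trdeg_bot]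
  | insert i s hi ih =>
    rw [Finset.sup_insert, Finset.sum_insert hi, Nat.cast_add]
    exact (trdeg_sup_le _ _).trans (add_le_add (h i (Finset.mem_insert_self i s))
      (ih fun j hj => h j (Finset.mem_insert_of_mem hj)))

end Trdeg

section Ratio

variable {M Ω : Type u} [Field M] [Field Ω] [Algebra M Ω]

/-- The simple transcendental extension does not change degrees of algebraic extensions. -/
theorem relfinrank_adjoin_sup {z : Ω} (hz : Transcendental M z) (M₁ : IntermediateField M Ω)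
    [FiniteDimensional M M₁] :
    relfinrank M⟮z⟯ (M⟮z⟯ ⊔ M₁) = Module.finrank M M₁ := by
  let b := Module.finBasis M M₁
  have htr : Transcendental M₁ z := fun h => hz (h.restrictScalars M)
  have hli : LinearIndependent M⟮z⟯ fun i => (b i : Ω) := by
    refine Fermat.Agent.FF.linearIndependent_adjoin_of_polynomial hz _ fun p hp i => ?_
    have h0 : ∑ j, (p j).map (algebraMap M M₁) * Polynomial.C (b j) = 0 := by
      refine (transcendental_iff_injective.mp htr) ?_
      rw [map_zero, map_sum]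
      refine Eq.trans (Finset.sum_congr rfl fun j _ => ?_) hp
      rw [map_mul, Polynomial.aeval_map_algebraMap, Polynomial.aeval_C]
      rfl
    refine Polynomial.ext fun m => ?_
    have hm := congrArg (fun q => Polynomial.coeff q m) h0
    simp only [Polynomial.finsetSum_coeff, Polynomial.coeff_mul_C, Polynomial.coeff_map,
      Polynomial.coeff_zero] at hm
    have h2 := Fintype.linearIndependent_iff.mp b.linearIndependent (fun j => (p j).coeff m) (by
      simpa only [Algebra.smul_def] using hm) i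
    simpa using h2
  have hd : M₁.LinearDisjoint M⟮z⟯ := IntermediateField.LinearDisjoint.of_basis_left b hli
  have h := congrArg Cardinal.toNat (hd.adjoin_rank_eq_rank_left_of_isAlgebraic_left (L := M⟮z⟯))
  rw [relfinrank_eq_finrank_of_le le_sup_left]
  refine Eq.trans ?_ h
  have e : extendScalars (le_sup_left : M⟮z⟯ ≤ M⟮z⟯ ⊔ M₁) = adjoin M⟮z⟯ (M₁ : Set Ω) := by
    refine restrictScalars_injective M ?_
    rw [extendScalars_restrictScalars, restrictScalars_adjoin_eq_sup, adjoin_self]
  rw [e]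
  rfl

variable [IsAlgClosed Ω] (F : IntermediateField M Ω)

/-- The algebraic closure of the constants in the ambient field. -/
abbrev acl : IntermediateField M Ω := algebraicClosure M Ω

theorem exists_descend {z θ : Ω} (hz : Transcendental M z)
    (hθ : IsAlgebraic M⟮z⟯ θ) :
    ∃ M₀ : IntermediateField M Ω, FiniteDimensional M M₀ ∧ M₀ ≤ acl ∧
      ∀ M₁ : IntermediateField M Ω, M₀ ≤ M₁ → M₁ ≤ acl →
        relfinrank (M⟮z⟯ ⊔ M₁) (M⟮z⟯ ⊔ M₁ ⊔ M⟮θ⟯) =
          relfinrank (M⟮z⟯ ⊔ acl) (M⟮z⟯ ⊔ acl ⊔ M⟮θ⟯) := by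
  classical
  set E : IntermediateField M Ω := M⟮z⟯ ⊔ acl
  have hθE : IsAlgebraic E θ := by
    let i : M⟮z⟯ →+* E := (inclusion (le_sup_left : M⟮z⟯ ≤ E)).toRingHom
    exact hθ.ringHom_of_comp_eq i (RingHom.id Ω) i.injective (RingHom.ext fun _ => rfl)
  let P := (minpoly E θ).map (algebraMap E Ω)
  have hc : ∀ m, ∃ s : Finset Ω, ↑s ⊆ (acl (M := M) (Ω := Ω) : Set Ω) ∧
      P.coeff m ∈ M⟮z⟯ ⊔ adjoin M (s : Set Ω) := by
    intro m
    have hm : P.coeff m ∈ E := by
      rw [Polynomial.coeff_map]; exact ((minpoly E θ).coeff m).2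
    have hE : E = adjoin M ({z} ∪ (acl (M := M) (Ω := Ω) : Set Ω)) := by
      rw [adjoin_union, adjoin_self]
    rw [hE] at hm
    obtain ⟨t, ht, hmt⟩ := exists_finset_of_mem_adjoin hm
    refine ⟨t.filter (· ∈ acl (M := M) (Ω := Ω)), fun x hx => (Finset.mem_filter.mp hx).2,
      adjoin_le_iff.mpr (fun x hx => ?_) hmt⟩
    rcases ht hx with h | h
    · exact (le_sup_left : M⟮z⟯ ≤ _) (Set.mem_singleton_iff.mp h ▸ mem_adjoin_simple_self M z)
    · exact (le_sup_right : adjoin M _ ≤ M⟮z⟯ ⊔ _)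
        (subset_adjoin M _ (Finset.mem_filter.mpr ⟨hx, h⟩))
  choose s hs hs' using hc
  let S := (Finset.range (P.natDegree + 1)).biUnion s
  have hS : ∀ x ∈ S, x ∈ acl (M := M) (Ω := Ω) := fun x hx => by
    obtain ⟨m, -, hm⟩ := Finset.mem_biUnion.mp hx
    exact hs m hm
  refine ⟨adjoin M (S : Set Ω), finiteDimensional_adjoin fun x hx =>
    (mem_algebraicClosure_iff.mp (hS x hx)).isIntegral, adjoin_le_iff.mpr hS, fun M₁ h₀ h₁ => ?_⟩
  set E₁ : IntermediateField M Ω := M⟮z⟯ ⊔ M₁
  have hE₁ : E₁ ≤ E := sup_le_sup_left h₁ _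
  have hcoef : ∀ m, P.coeff m ∈ E₁ := by
    intro m
    by_cases hm : m ≤ P.natDegree
    · refine sup_le_sup_left ((adjoin.mono M _ _ ?_).trans h₀) _ (hs' m)
      intro x hx
      exact Finset.mem_biUnion.mpr ⟨m, Finset.mem_range.mpr (Nat.lt_succ_of_le hm), hx⟩
    · rw [P.coeff_eq_zero_of_natDegree_lt (not_le.mp hm)]; exact zero_mem _
  obtain ⟨p, hp⟩ : ∃ p : Polynomial E₁, p.map (algebraMap E₁ Ω) = P :=
    (Polynomial.mem_map_range (algebraMap E₁ Ω)).mpr fun m => ⟨⟨_, hcoef m⟩, rfl⟩
  have hpm : p.map (inclusion hE₁).toRingHom = minpoly E θ := by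
    refine Polynomial.map_injective (algebraMap E Ω) (algebraMap E Ω).injective ?_
    rw [Polynomial.map_map]
    exact hp
  have hmon : p.Monic := Polynomial.monic_of_injective (inclusion hE₁).toRingHom.injective
    (hpm ▸ minpoly.monic hθE.isIntegral)
  have hroot : Polynomial.aeval θ p = 0 := by
    have h := minpoly.aeval E θ
    rw [← hpm, Polynomial.aeval_def, Polynomial.eval₂_map] at h
    exact h
  have hint : IsIntegral E₁ θ := ⟨p, hmon, hroot⟩
  have hdeg : (minpoly E₁ θ).natDegree = (minpoly E θ).natDegree := by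
    refine le_antisymm ?_ ?_
    · rw [← hpm, Polynomial.natDegree_map]
      exact Polynomial.natDegree_le_of_dvd (minpoly.dvd E₁ θ hroot) hmon.ne_zero
    · have h : Polynomial.aeval θ ((minpoly E₁ θ).map (inclusion hE₁).toRingHom) = 0 := by
        rw [Polynomial.aeval_def, Polynomial.eval₂_map]
        exact minpoly.aeval E₁ θ
      refine (Polynomial.natDegree_le_of_dvd (minpoly.dvd E θ h)
        ((Polynomial.map_ne_zero_iff (inclusion hE₁).toRingHom.injective).mpr
          (minpoly.ne_zero hint))).trans_eq ?_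
      rw [Polynomial.natDegree_map]
  have key : ∀ (D : IntermediateField M Ω), IsIntegral D θ →
      relfinrank D (D ⊔ M⟮θ⟯) = (minpoly D θ).natDegree := by
    intro D hD
    rw [relfinrank_eq_finrank_of_le le_sup_left, ← IntermediateField.adjoin.finrank hD]
    have e : extendScalars (le_sup_left : D ≤ D ⊔ M⟮θ⟯) = D⟮θ⟯ := by
      refine restrictScalars_injective M ?_
      rw [extendScalars_restrictScalars, restrictScalars_adjoin_eq_sup]
    rw [e]
  rw [key E₁ hint, key E hθE.isIntegral, hdeg]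

/-- The degree over `M(z)` and the degree over `acl(z)` are proportional. -/
theorem relfinrank_ratio {z z' : Ω} (hz : Transcendental M z) (hz' : Transcendental M z')
    (hzF : z ∈ F) (hzF' : z' ∈ F)
    [FiniteDimensional M⟮z⟯ (extendScalars (adjoin_simple_le_iff.mpr hzF : M⟮z⟯ ≤ F))]
    [Algebra.IsSeparable M⟮z⟯ (extendScalars (adjoin_simple_le_iff.mpr hzF : M⟮z⟯ ≤ F))]
    [FiniteDimensional M⟮z'⟯ (extendScalars (adjoin_simple_le_iff.mpr hzF' : M⟮z'⟯ ≤ F))]
    [Algebra.IsSeparable M⟮z'⟯ (extendScalars (adjoin_simple_le_iff.mpr hzF' : M⟮z'⟯ ≤ F))] :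
    relfinrank M⟮z⟯ F * relfinrank (M⟮z'⟯ ⊔ acl) (F ⊔ acl) =
      relfinrank M⟮z'⟯ F * relfinrank (M⟮z⟯ ⊔ acl) (F ⊔ acl) := by
  have gen : ∀ (w : Ω) (hw : w ∈ F),
      FiniteDimensional M⟮w⟯ (extendScalars (adjoin_simple_le_iff.mpr hw : M⟮w⟯ ≤ F)) →
      Algebra.IsSeparable M⟮w⟯ (extendScalars (adjoin_simple_le_iff.mpr hw : M⟮w⟯ ≤ F)) →
      ∃ θ, IsAlgebraic M⟮w⟯ θ ∧ F = M⟮w⟯ ⊔ M⟮θ⟯ := by
    intro w hw _ _
    set G := extendScalars (adjoin_simple_le_iff.mpr hw : M⟮w⟯ ≤ F)
    obtain ⟨θ, hθ⟩ := Field.exists_primitive_element M⟮w⟯ G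
    refine ⟨(θ : Ω), (isAlgebraic_algHom_iff G.val G.val.injective).mpr
      (Algebra.IsAlgebraic.isAlgebraic θ), ?_⟩
    have h := congrArg (IntermediateField.map G.val) hθ
    rw [adjoin_map, Set.image_singleton, ← AlgHom.fieldRange_eq_map, fieldRange_val] at h
    have h2 := congrArg (IntermediateField.restrictScalars M) h
    rw [restrictScalars_adjoin_eq_sup, extendScalars_restrictScalars] at h2
    exact h2.symm
  obtain ⟨θ, hθ, hF⟩ := gen z hzF inferInstance inferInstance
  obtain ⟨θ', hθ', hF'⟩ := gen z' hzF' inferInstance inferInstance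
  obtain ⟨N, hNf, hNa, hN⟩ := exists_descend hz hθ
  obtain ⟨N', hNf', hNa', hN'⟩ := exists_descend hz' hθ'
  set M₁ := N ⊔ N'
  have hM₁ : FiniteDimensional M M₁ := IntermediateField.finiteDimensional_sup N N'
  have key : ∀ (w : Ω) (θ : Ω), Transcendental M w → w ∈ F → F = M⟮w⟯ ⊔ M⟮θ⟯ →
      relfinrank (M⟮w⟯ ⊔ M₁) (M⟮w⟯ ⊔ M₁ ⊔ M⟮θ⟯) =
        relfinrank (M⟮w⟯ ⊔ acl) (M⟮w⟯ ⊔ acl ⊔ M⟮θ⟯) →
      relfinrank M⟮w⟯ F * relfinrank F (F ⊔ M₁) =
        Module.finrank M M₁ * relfinrank (M⟮w⟯ ⊔ acl) (F ⊔ acl) := by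
    intro w θ hw hwF hF h
    rw [relfinrank_mul_relfinrank (adjoin_simple_le_iff.mpr hwF) le_sup_left,
      ← relfinrank_adjoin_sup hw M₁,
      ← relfinrank_mul_relfinrank (le_sup_left : M⟮w⟯ ≤ M⟮w⟯ ⊔ M₁)
        (sup_le_sup_right (adjoin_simple_le_iff.mpr hwF) M₁ : M⟮w⟯ ⊔ M₁ ≤ F ⊔ M₁)]
    congr 1
    rw [hF, sup_right_comm, h, sup_right_comm]
  have k := key z θ hz hzF hF (hN M₁ le_sup_left (sup_le hNa hNa'))
  have k' := key z' θ' hz' hzF' hF' (hN' M₁ le_sup_right (sup_le hNa hNa'))
  have hA : 0 < relfinrank F (F ⊔ M₁) := by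
    rw [relfinrank_eq_finrank_of_le le_sup_left]
    have hfin : FiniteDimensional F (extendScalars (le_sup_left : F ≤ F ⊔ M₁)) := by
      have e : extendScalars (le_sup_left : F ≤ F ⊔ M₁) = adjoin F (M₁ : Set Ω) := by
        refine restrictScalars_injective M ?_
        rw [extendScalars_restrictScalars, restrictScalars_adjoin_eq_sup, adjoin_self]
      rw [e]
      let b := Module.finBasis M M₁
      have e2 : adjoin F (M₁ : Set Ω) = adjoin F (Set.range fun i => (b i : Ω)) := by
        refine le_antisymm (adjoin_le_iff.mpr fun x hx => ?_)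
          (adjoin.mono F _ _ (Set.range_subset_iff.mpr fun i => (b i).2))
        have h1 : x = ∑ i, b.repr ⟨x, hx⟩ i • (b i : Ω) := by
          have h2 := congrArg M₁.val (b.sum_repr ⟨x, hx⟩)
          rw [map_sum] at h2
          simpa only [map_smul, IntermediateField.coe_val] using h2.symm
        rw [h1]
        exact ((adjoin F (Set.range fun i => (b i : Ω))).restrictScalars M).sum_mem fun i _ =>
          ((adjoin F (Set.range fun i => (b i : Ω))).restrictScalars M).smul_mem
            (subset_adjoin F _ ⟨i, rfl⟩)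
      rw [e2]
      have : Finite (Set.range fun i => (b i : Ω)) := inferInstance
      exact finiteDimensional_adjoin fun x hx => by
        obtain ⟨i, rfl⟩ := hx
        exact ((IsIntegral.of_finite M (b i)).map M₁.val).tower_top
    exact Module.finrank_pos
  refine Nat.eq_of_mul_eq_mul_left hA ?_
  calc relfinrank F (F ⊔ M₁) * (relfinrank M⟮z⟯ F * relfinrank (M⟮z'⟯ ⊔ acl) (F ⊔ acl))
      = relfinrank M⟮z⟯ F * relfinrank F (F ⊔ M₁) * relfinrank (M⟮z'⟯ ⊔ acl) (F ⊔ acl) := by ring
    _ = Module.finrank M M₁ * relfinrank (M⟮z'⟯ ⊔ acl) (F ⊔ acl) *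
          relfinrank (M⟮z⟯ ⊔ acl) (F ⊔ acl) := by rw [k]; ring
    _ = _ := by rw [← k']; ring

end Ratio

end Fermat.Agent.AV
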