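import Fermat.Agent.AV.Degree.Stage
import Fermat.Agent.AV.Degree.Field

/-!
# Tangent vectors of derivations and rationality of torsion points
-/

set_option autoImplicit false
set_option linter.unusedSectionVars false

noncomputable section

universe u

open CategoryTheory AlgebraicGeometry TrivSqZeroExt

namespace Fermat.Agent.AV

variable {K : Type u} [Field K] {X : AbVar K} {R : Type u} [CommRing R] [Algebra K R]

/-- The first order deformation of a derivation. -/
def derHom (δ : Derivation K R R) : R →ₐ[K] Dual₁ R where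
  toFun r := inl r + inr (δ r)
  map_one' := by ext <;> simp
  map_mul' a b := by
    ext
    · simp
    · simp [δ.leibniz, mul_comm]
  map_zero' := by ext <;> simp
  map_add' a b := by ext <;> simp
  commutes' c := by ext <;> simp [algebraMap_eq_inl']

theorem snd_derHom (δ : Derivation K R R) (r : R) : (derHom δ r).snd = δ r := by simp [derHom]

theorem fstH_comp_derHom (δ : Derivation K R R) :
    (fstH K R R).comp (derHom δ) = AlgHom.id K R :=
  AlgHom.ext fun r => by simp [derHom]

variable (X) in
/-- The tangent vector of a derivation at a point, translated to the origin. -/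
def derTan (δ : Derivation K R R) : Pt X R →+ Tan X R :=
  (Pt.map (derHom δ) - Pt.map (inlH K R R)).codRestrict _ fun p => by
    rw [mem_tan, AddMonoidHom.sub_apply, map_sub, Pt.map_map, Pt.map_map, fstH_comp_derHom,
      fstH_comp_inlH, sub_self]

theorem at_derTan (δ : Derivation K R R) (p : Pt X R) :
    Tan.at p (derTan X δ p) = Pt.map (derHom δ) p :=
  add_sub_cancel _ _

theorem dVal_derTan (δ : Derivation K R R) (U : Chart X) {p : Pt X R} (hp : p.Mem U.1)
    (b : Γ(X.carrier, U.1)) : dVal U hp b (derTan X δ p) = δ (p.eval U hp b) := by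
  rw [dVal, Pt.eval_congr_left U (at_derTan δ p) (Tan.mem_at hp _) (hp.map _),
    Pt.eval_map (derHom δ) p U hp, AlgHom.comp_apply, snd_derHom]

theorem derTan_map_of_eq_zero (δ : Derivation K R R) {S : Type u} [CommRing S] [Algebra K S]
    (φ : S →ₐ[K] R) (h : ∀ z, δ (φ z) = 0) (p : Pt X S) : derTan X δ (Pt.map φ p) = 0 := by
  refine Subtype.ext ?_
  show Pt.map (derHom δ) (Pt.map φ p) - Pt.map (inlH K R R) (Pt.map φ p) = 0
  rw [Pt.map_map, Pt.map_map, show (derHom δ).comp φ = (inlH K R R).comp φ from
    AlgHom.ext fun z => TrivSqZeroExt.ext (by simp [derHom]) (by simp [derHom, h]), sub_self]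

theorem derivation_eq_zero_of_adjoin {E Ω : Type u} [Field E] [Field Ω] [Algebra E Ω] (S : Set Ω)
    (δ : Derivation E (IntermediateField.adjoin E S) (IntermediateField.adjoin E S))
    (h : ∀ z : IntermediateField.adjoin E S, (z : Ω) ∈ S → δ z = 0) : δ = 0 := by
  refine Derivation.ext fun z => ?_
  obtain ⟨z, hz⟩ := z
  induction hz using IntermediateField.adjoin_induction with
  | mem x hx => exact h _ hx
  | algebraMap c => exact δ.map_algebraMap c
  | add x y hx hy h1 h2 =>
    show δ (⟨x, hx⟩ + ⟨y, hy⟩) = 0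
    rw [map_add, h1, h2]
    exact add_zero _
  | inv x hx h1 =>
    show δ (⟨x, hx⟩⁻¹ : IntermediateField.adjoin E S) = 0
    rw [δ.leibniz_inv, h1]
    exact smul_zero _
  | mul x y hx hy h1 h2 =>
    show δ (⟨x, hx⟩ * ⟨y, hy⟩) = 0
    rw [δ.leibniz, h1, h2]
    simp

variable [IsAlgClosed K]

/-- Torsion points of order invertible in `K` are rational. -/
theorem mem_range_of_nsmul_eq_zero {F : Type u} [Field F] [Algebra K F] {n : ℕ}
    (hn : (n : K) ≠ 0) (k : Pt X F) (hk : n • k = 0) :
    k ∈ (Pt.map (X := X) (Algebra.ofId K F)).range := by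
  obtain ⟨U, hU⟩ := k.exists_chart
  obtain ⟨S, hS⟩ := (finiteType_sections X U).out
  let φ := k.eval U hU
  let E := IntermediateField.adjoin K (φ '' (S : Set Γ(X.carrier, U.1)))
  have hφ : ∀ b, φ b ∈ E := fun b => by
    have hle : Algebra.adjoin K (S : Set Γ(X.carrier, U.1)) ≤ E.toSubalgebra.comap φ :=
      Algebra.adjoin_le fun c hc => IntermediateField.subset_adjoin K _ ⟨c, hc, rfl⟩
    exact hle (hS.symm ▸ trivial)
  obtain ⟨k', hk'⟩ := mem_defPts_of_eval (E := E) hU hφ
  have hU' : k'.Mem U.1 := Pt.mem_of_map_field (φ := E.val) (hk'.symm ▸ hU)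
  have hev : ∀ b, (k'.eval U hU' b : F) = φ b := fun b => by
    have := AlgHom.congr_fun (Pt.eval_map E.val k' U hU') b
    rw [Pt.eval_congr_left U hk' (hU'.map _) hU] at this
    exact this.symm
  have hk'0 : n • k' = 0 := by
    refine Pt.map_injective_of_injective E.val E.val.injective ?_
    rw [map_nsmul, hk', hk, map_zero]
  have : Algebra.EssFiniteType K E :=
    IntermediateField.essFiniteType_iff.mpr (IntermediateField.fg_adjoin_of_finite
      (S.finite_toSet.image φ))
  obtain ⟨hfin, -⟩ := finite_separable_of_derivation (E := K) (F := E) fun δ => by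
    refine derivation_eq_zero_of_adjoin _ δ ?_
    rintro z ⟨b, -, hb⟩
    rw [show z = k'.eval U hU' b from Subtype.ext (hb.symm.trans (hev b).symm), ← dVal_derTan δ U]
    have h0 : (n : E) * dVal U hU' b (derTan X δ k') = 0 := by
      rw [← dVal_nsmul, ← map_nsmul, hk'0, map_zero, ← dHom_apply, map_zero]
    exact (mul_eq_zero.mp h0).resolve_left fun h => hn ((algebraMap K E).injective (by
      rw [map_natCast, map_zero]; exact h))
  have hbij : Function.Bijective (algebraMap K E) :=
    IsAlgClosed.algebraMap_bijective_of_isIntegral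
  let e := AlgEquiv.ofBijective (Algebra.ofId K E) hbij
  refine ⟨Pt.map e.symm.toAlgHom k', ?_⟩
  rw [Pt.map_map]
  refine Eq.trans ?_ hk'
  refine congrArg (fun χ => Pt.map χ k') (AlgHom.ext fun z => ?_)
  show algebraMap K F (e.symm z) = z
  rw [IsScalarTower.algebraMap_apply K E F]
  exact congrArg Subtype.val (e.apply_symm_apply z)

/-- The torsion over an extension field is the rational torsion. -/
theorem natCard_torsion_map {F : Type u} [Field F] [Algebra K F] {n : ℕ} (hn : (n : K) ≠ 0) :
    Nat.card {k : Pt X F // n • k = 0} = Nat.card {k : Pt X K // n • k = 0} := by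
  have hinj : Function.Injective (Pt.map (X := X) (Algebra.ofId K F)) :=
    Pt.map_injective_of_injective _ (algebraMap K F).injective
  refine (Nat.card_eq_of_bijective
    (fun k : {k : Pt X K // n • k = 0} =>
      (⟨Pt.map (Algebra.ofId K F) k.1, by rw [← map_nsmul, k.2, map_zero]⟩ :
        {k : Pt X F // n • k = 0})) ⟨fun k k' h => ?_, fun k => ?_⟩).symm
  · exact Subtype.ext (hinj (congrArg Subtype.val h))
  · obtain ⟨k₀, h₀⟩ := mem_range_of_nsmul_eq_zero hn k.1 k.2
    exact ⟨⟨k₀, hinj (by rw [map_nsmul, h₀, k.2, map_zero])⟩, Subtype.ext h₀⟩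

end Fermat.Agent.AV
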