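import Fermat.Agent.AV.Degree.Rig

/-!
# The degree of multiplication is the order of the kernel
-/

set_option autoImplicit false
set_option linter.unusedSectionVars false

noncomputable section

universe u

open CategoryTheory AlgebraicGeometry IntermediateField
open scoped TensorProduct

namespace Fermat.Agent.AV

theorem finite_separable_top {L Ω : Type u} [Field L] [Field Ω] [Algebra L Ω]
    {A B C : IntermediateField L Ω} (hAB : A ≤ B) (hBC : B ≤ C)
    (hfin : FiniteDimensional A (extendScalars (hAB.trans hBC)))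
    (hsep : Algebra.IsSeparable A (extendScalars (hAB.trans hBC))) :
    FiniteDimensional B (extendScalars hBC) ∧ Algebra.IsSeparable B (extendScalars hBC) := by
  let _ : Algebra A B := (IntermediateField.inclusion hAB).toRingHom.toAlgebra
  let _ : Algebra A (extendScalars hBC) :=
    ((algebraMap B (extendScalars hBC)).comp (algebraMap A B)).toAlgebra
  have : IsScalarTower A B (extendScalars hBC) := IsScalarTower.of_algebraMap_eq fun _ => rfl
  let e : extendScalars (hAB.trans hBC) ≃ₐ[A] extendScalars hBC :=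
    { toFun := fun x => ⟨x.1, x.2⟩
      invFun := fun x => ⟨x.1, x.2⟩
      left_inv := fun _ => rfl
      right_inv := fun _ => rfl
      map_mul' := fun _ _ => rfl
      map_add' := fun _ _ => rfl
      commutes' := fun _ => rfl }
  have : FiniteDimensional A (extendScalars hBC) := Module.Finite.equiv e.toLinearEquiv
  have : Algebra.IsSeparable A (extendScalars hBC) := AlgEquiv.Algebra.isSeparable e
  exact ⟨Module.Finite.of_restrictScalars_finite A B _,
    Algebra.isSeparable_tower_top_of_isSeparable A B _⟩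

variable {K : Type u} [Field K] [IsAlgClosed K] {X : AbVar K}
variable {L₀ : Type u} [Field L₀] [Algebra K L₀] [IsAlgClosed L₀]

/-- A point of full transcendence degree over the constants is a conjugate of the generic point. -/
theorem exists_lift (y : Pt X (GenF X L₀))
    (hy : ∀ E : IntermediateField L₀ (GenF X L₀), y ∈ defPts X (E.restrictScalars K) →
      (X.dim : Cardinal) ≤ Algebra.trdeg L₀ E) :
    ∃ Ψ : GenF X L₀ →ₐ[L₀] GenF X L₀, Pt.map (Ψ.restrictScalars K) (genP X L₀) = y := by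
  obtain ⟨U, hU⟩ := y.exists_chart
  have hg := mem_genericPoint_of_mem hU
  let R := L₀ ⊗[K] Γ(X.carrier, U.1)
  let ψ₀ : R →ₐ[L₀] GenF X L₀ := Algebra.TensorProduct.lift (Algebra.ofId L₀ _)
    ((genHom X L₀).comp (germAlg U.1 hg)) fun _ _ => Commute.all _ _
  let ψ₁ : R →ₐ[L₀] GenF X L₀ := Algebra.TensorProduct.lift (Algebra.ofId L₀ _)
    (y.eval U hU) fun _ _ => Commute.all _ _
  have hψ₀ : Function.Injective ψ₀ := by
    let ι : R →ₐ[K] FFld X ⊗[K] L₀ :=
      (Algebra.TensorProduct.map (germAlg U.1 hg) (AlgHom.id K L₀)).comp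
        (Algebra.TensorProduct.comm K L₀ Γ(X.carrier, U.1)).toAlgHom
    have e : ∀ t, ψ₀ t = toGenF X L₀ (ι t) := by
      intro t
      induction t using TensorProduct.induction_on with
      | zero => simp
      | tmul c b =>
        have : ι (c ⊗ₜ b) = germAlg U.1 hg b ⊗ₜ c := rfl
        rw [this, Algebra.TensorProduct.lift_tmul,
          show germAlg U.1 hg b ⊗ₜ[K] c =
            (1 : FFld X) ⊗ₜ[K] c * germAlg U.1 hg b ⊗ₜ[K] (1 : L₀) by simp,
          map_mul]
        rfl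
      | add p q hp hq => rw [map_add, map_add, hp, hq, map_add]
    intro p q h
    rw [e, e] at h
    exact (Algebra.TensorProduct.comm K L₀ Γ(X.carrier, U.1)).injective
      (Module.Flat.rTensor_preserves_injective_linearMap (M := L₀) (germAlg U.1 hg).toLinearMap
        (germAlg_injective U.1 hg) (toGenF_injective X L₀ h))
  have hdom : IsDomain R := hψ₀.isDomain
  have hl₀ : ∀ b, ψ₀ (1 ⊗ₜ b) = genHom X L₀ (germAlg U.1 hg b) := fun b =>
    (Algebra.TensorProduct.lift_tmul _ _ _ _ _).trans (by rw [map_one, one_mul]; rfl)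
  have hl₁ : ∀ b, ψ₁ (1 ⊗ₜ b) = y.eval U hU b := fun b =>
    (Algebra.TensorProduct.lift_tmul _ _ _ _ _).trans (by rw [map_one, one_mul])
  have hψ₁ : Function.Injective ψ₁ := by
    set E := IntermediateField.adjoin L₀ (Set.range ψ₁)
    have hE : y ∈ defPts X (E.restrictScalars K) := mem_defPts_of_eval hU fun b =>
      IntermediateField.subset_adjoin L₀ _ ⟨1 ⊗ₜ b, hl₁ b⟩
    by_contra hinj
    have hker : RingHom.ker ψ₁.toRingHom ≠ ⊥ := fun h =>
      hinj ((RingHom.injective_iff_ker_eq_bot _).mpr h)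
    have := RingHom.ker_isPrime ψ₁.toRingHom
    have h1 := trdeg_quotient_add_one_le (K := L₀) (RingHom.ker ψ₁.toRingHom) hker
    have h2 : Algebra.trdeg L₀ R ≤ X.dim :=
      (trdeg_le_of_injective ψ₀ hψ₀).trans (trdeg_genF_le X L₀)
    have h3 := (hy E hE).trans (trdeg_adjoin_range_le (K := L₀) ψ₁)
    have h5 : (X.dim : Cardinal) + 1 ≤ X.dim := (add_le_add h3 le_rfl).trans (h1.trans h2)
    norm_cast at h5
    omega
  let φ₀ : FractionRing R →ₐ[L₀] GenF X L₀ := IsFractionRing.liftAlgHom hψ₀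
  let φ₁ : FractionRing R →ₐ[L₀] GenF X L₀ := IsFractionRing.liftAlgHom hψ₁
  have hφ₀ : ∀ t, φ₀ (algebraMap R (FractionRing R) t) = ψ₀ t := fun t =>
    IsFractionRing.lift_algebraMap hψ₀ t
  have hφ₁ : ∀ t, φ₁ (algebraMap R (FractionRing R) t) = ψ₁ t := fun t =>
    IsFractionRing.lift_algebraMap hψ₁ t
  let P := φ₀.fieldRange
  have hgP : ∀ f, genHom X L₀ f ∈ P := by
    intro f
    obtain ⟨a, b, -, rfl⟩ := exists_eq_germ_div U hg f
    rw [map_div₀]
    have h : ∀ c, genHom X L₀ (germAlg U.1 hg c) ∈ P := fun c =>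
      ⟨algebraMap R (FractionRing R) (1 ⊗ₜ c), (hφ₀ _).trans (hl₀ c)⟩
    exact div_mem (h a) (h b)
  have : Algebra.IsAlgebraic P (GenF X L₀) :=
    ⟨GenF.isAlgebraic_of_subset L₀ P.toSubfield (fun c => P.algebraMap_mem c) hgP⟩
  let θ : P →ₐ[L₀] GenF X L₀ := φ₁.comp (AlgEquiv.ofInjectiveField φ₀).symm.toAlgHom
  obtain ⟨Ψ, hΨ⟩ := IsAlgClosed.surjective_domRestrict_of_isAlgebraic
    (M := GenF X L₀) (E := GenF X L₀) θ
  refine ⟨Ψ, Pt.ext_eval (((genPt_mem U hg).map (genHom X L₀)).map _) hU ?_⟩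
  refine AlgHom.ext fun b => ?_
  have hQ := (genPt_mem U hg).map (genHom X L₀)
  rw [Pt.eval_map (Ψ.restrictScalars K) (genP X L₀) U hQ, AlgHom.comp_apply]
  have e1 : (genP X L₀).eval U hQ b = genHom X L₀ (germAlg U.1 hg b) := by
    show (Pt.map (genHom X L₀) (genPt X)).eval U hQ b = _
    rw [Pt.eval_map (genHom X L₀) (genPt X) U (genPt_mem U hg), genPt_eval U hg]
    rfl
  rw [e1]
  set w := algebraMap R (FractionRing R) (1 ⊗ₜ b)
  have e2 : genHom X L₀ (germAlg U.1 hg b) = φ₀ w := (hl₀ b).symm.trans (hφ₀ _).symm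
  show Ψ (genHom X L₀ (germAlg U.1 hg b)) = _
  rw [e2]
  have e3 := AlgHom.congr_fun hΨ (AlgEquiv.ofInjectiveField φ₀ w)
  refine Eq.trans e3 ?_
  show φ₁ ((AlgEquiv.ofInjectiveField φ₀).symm (AlgEquiv.ofInjectiveField φ₀ w)) = _
  rw [AlgEquiv.symm_apply_apply, hφ₁, hl₁]

theorem map_genP_eq_iff (Ψ Ψ' : GenF X L₀ →ₐ[L₀] GenF X L₀) :
    Pt.map (Ψ.restrictScalars K) (genP X L₀) = Pt.map (Ψ'.restrictScalars K) (genP X L₀) ↔
      Set.EqOn Ψ Ψ' (Fq X L₀) := by
  rw [genP, Pt.map_map, Pt.map_map]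
  constructor
  · intro h x hx
    have h' := genHom_ext h
    induction hx using IntermediateField.adjoin_induction with
    | mem x hx => obtain ⟨f, rfl⟩ := hx; exact AlgHom.congr_fun h' f
    | algebraMap c => rw [Ψ.commutes, Ψ'.commutes]
    | add x y _ _ h1 h2 => rw [map_add, map_add, h1, h2]
    | inv x _ h1 => rw [map_inv₀, map_inv₀, h1]
    | mul x y _ _ h1 h2 => rw [map_mul, map_mul, h1, h2]
  · intro h
    rw [show (Ψ.restrictScalars K).comp (genHom X L₀) = (Ψ'.restrictScalars K).comp (genHom X L₀)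
      from AlgHom.ext fun f => h (genHom_mem_Fq f)]

theorem map_restrictScalars_cst (Ψ : GenF X L₀ →ₐ[L₀] GenF X L₀) (p : Pt X L₀) :
    Pt.map (Ψ.restrictScalars K) (cst X L₀ p) = cst X L₀ p := by
  rw [cst, Pt.map_map]
  congr 2
  exact AlgHom.ext fun c => Ψ.commutes c

namespace Rig

variable (r : Rig X L₀)

include r in
theorem exists_mulHom {n : ℕ} (hn : (n : K) ≠ 0) :
    ∃ Ψ : GenF X L₀ →ₐ[L₀] GenF X L₀,
      Pt.map (Ψ.restrictScalars K) (genP X L₀) = n • genP X L₀ := by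
  refine exists_lift _ fun E hE => ?_
  have hz : ∀ i, r.z n i ∈ E := fun i =>
    r.z_mem (add_mem hE (cst_mem_defPts E (r.a i)))
  have hb := (r.isTranscendenceBasis_z (fun _ => n) fun _ => hn).1
  have hind : AlgebraicIndependent L₀ fun i => (⟨r.z n i, hz i⟩ : E) :=
    AlgebraicIndependent.of_comp E.val hb
  simpa using hind.lift_cardinalMk_le_trdeg

theorem map_z {n : ℕ} {Ψ : GenF X L₀ →ₐ[L₀] GenF X L₀}
    (hΨ : Pt.map (Ψ.restrictScalars K) (genP X L₀) = n • genP X L₀) (i : Fin X.dim) :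
    Ψ (r.z 1 i) = r.z n i := by
  have e : Pt.map (Ψ.restrictScalars K) (r.slot 1 i) = r.slot n i := by
    rw [slot, slot, one_smul, map_add, hΨ, map_restrictScalars_cst]
  have h := AlgHom.congr_fun (Pt.eval_map (Ψ.restrictScalars K) (r.slot 1 i) r.U (r.slot_mem 1 i))
    (r.s i)
  rw [Pt.eval_congr_left r.U e ((r.slot_mem 1 i).map _) (r.slot_mem n i)] at h
  exact h.symm

/-- Multiplication by `n` multiplies slot degrees by the order of its kernel. -/
theorem relfinrank_zFld_mul {n : ℕ} (hn : (n : K) ≠ 0) :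
    relfinrank (r.zFld fun _ => n) (Fq X L₀) =
      relfinrank (r.zFld fun _ => 1) (Fq X L₀) * Nat.card {k : Pt X K // n • k = 0} := by
  classical
  obtain ⟨Ψ, hΨ⟩ := r.exists_mulHom hn
  set Fn := (Fq X L₀).map Ψ
  have hFn : Fn ≤ Fq X L₀ := by
    rw [IntermediateField.map_le_iff_le_comap]
    refine Fq_le (mem_defPts_of_range_subset (genHom X L₀) fun f => ?_)
    show Ψ (genHom X L₀ f) ∈ Fq X L₀
    exact range_subset_of_mem_defPts (E := (Fq X L₀).restrictScalars K)
      ((Ψ.restrictScalars K).comp (genHom X L₀))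
      (by rw [← Pt.map_map]; exact hΨ.symm ▸ nsmul_mem genP_mem_defPts n) f
  have hzn : r.zFld (fun _ => n) = (r.zFld fun _ => 1).map Ψ := by
    rw [zFld, zFld, IntermediateField.adjoin_map, ← Set.range_comp]
    congr 2
    exact funext fun i => (r.map_z hΨ i).symm
  have hzF : r.zFld (fun _ => n) ≤ Fn := hzn ▸ IntermediateField.map_mono Ψ (r.zFld_le _)
  rw [← relfinrank_mul_relfinrank hzF hFn, hzn, relfinrank_map_map]
  congr 1
  rw [← natCard_torsion_map (F := GenF X L₀) hn, relfinrank_eq_finrank_of_le hFn]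
  obtain ⟨hfin, hsep⟩ := r.finite_separable (fun _ => n) fun _ => hn
  obtain ⟨_, _⟩ := finite_separable_top hzF hFn hfin hsep
  rw [← AlgHom.card Fn (extendScalars hFn) (GenF X L₀), ← Nat.card_eq_fintype_card]
  set Q := genP X L₀
  have hfix : ∀ Θ : GenF X L₀ →ₐ[L₀] GenF X L₀,
      n • Pt.map (Θ.restrictScalars K) Q = n • Q ↔ ∀ x ∈ Fn, Θ x = x := by
    intro Θ
    rw [← map_nsmul, ← hΨ, Pt.map_map, show (Θ.restrictScalars K).comp (Ψ.restrictScalars K) =
      (Θ.comp Ψ).restrictScalars K from rfl, map_genP_eq_iff]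
    exact ⟨fun h x ⟨w, hw, e⟩ => e ▸ h hw, fun h w hw => h _ ⟨w, hw, rfl⟩⟩
  have hlift : ∀ k : {k : Pt X (GenF X L₀) // n • k = 0},
      ∃ Θ : GenF X L₀ →ₐ[L₀] GenF X L₀, Pt.map (Θ.restrictScalars K) Q = Q + k := by
    intro k
    refine exists_lift _ fun E hE => ?_
    obtain ⟨k₀, hk₀⟩ := mem_range_of_nsmul_eq_zero hn k.1 k.2
    have hk : k.1 ∈ defPts X (E.restrictScalars K) := hk₀ ▸ map_const_mem_defPts _ k₀
    have hQE : Fq X L₀ ≤ E := Fq_le ((AddSubgroup.add_mem_cancel_right _ hk).mp hE)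
    have hz := r.isTranscendenceBasis_z (fun _ => 1) fun _ => by simp
    have hmem : ∀ i, r.z 1 i ∈ E := fun i =>
      hQE (r.zFld_le _ (IntermediateField.subset_adjoin L₀
        (Set.range fun j => r.z 1 j) ⟨i, rfl⟩))
    have hind : AlgebraicIndependent L₀ fun i => (⟨r.z 1 i, hmem i⟩ : E) :=
      AlgebraicIndependent.of_comp E.val hz.1
    simpa using hind.lift_cardinalMk_le_trdeg
  choose Θ hΘ using hlift
  have hΘfix : ∀ k, ∀ x ∈ Fn, Θ k x = x := fun k => (hfix (Θ k)).mp (by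
    rw [hΘ, nsmul_add, k.2, add_zero])
  let F : {k : Pt X (GenF X L₀) // n • k = 0} → (extendScalars hFn →ₐ[Fn] GenF X L₀) := fun k =>
    { toRingHom := (Θ k).toRingHom.comp (algebraMap (extendScalars hFn) (GenF X L₀))
      commutes' := fun c => hΘfix k c c.2 }
  refine (Nat.card_eq_of_bijective F ⟨fun k k' h => ?_, fun σ => ?_⟩).symm
  · have h1 : Set.EqOn (Θ k) (Θ k') (Fq X L₀) := fun x hx =>
      AlgHom.congr_fun h (⟨x, hx⟩ : extendScalars hFn)
    exact Subtype.ext (add_left_cancel ((hΘ k).symm.trans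
      (((map_genP_eq_iff _ _).mpr h1).trans (hΘ k'))))
  · let σ₀ : Fq X L₀ →ₐ[L₀] GenF X L₀ :=
      { toFun := fun x => σ ⟨x, x.2⟩
        map_one' := map_one σ
        map_mul' := fun x y => map_mul σ ⟨x, x.2⟩ ⟨y, y.2⟩
        map_zero' := map_zero σ
        map_add' := fun x y => map_add σ ⟨x, x.2⟩ ⟨y, y.2⟩
        commutes' := fun c => σ.commutes ⟨algebraMap L₀ (GenF X L₀) c, Fn.algebraMap_mem c⟩ }
    obtain ⟨S, hS⟩ := IsAlgClosed.surjective_domRestrict_of_isAlgebraic
      (M := GenF X L₀) (E := GenF X L₀) σ₀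
    have hS' : ∀ (x : GenF X L₀) (hx : x ∈ Fq X L₀), S x = σ ⟨x, hx⟩ := fun x hx =>
      AlgHom.congr_fun hS ⟨x, hx⟩
    have hk : n • (Pt.map (S.restrictScalars K) Q - Q) = 0 := by
      rw [nsmul_sub, (hfix S).mpr (fun x hx => by
        rw [hS' x (hFn hx)]
        exact σ.commutes ⟨x, hx⟩), sub_self]
    refine ⟨⟨_, hk⟩, AlgHom.ext fun x => ?_⟩
    show Θ _ (x : GenF X L₀) = σ x
    have h1 := (map_genP_eq_iff (Θ ⟨_, hk⟩) S).mp ((hΘ _).trans (add_sub_cancel Q _))
    rw [h1 x.2]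
    exact hS' x x.2

end Rig

end Fermat.Agent.AV
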