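import Fermat.Agent.AV.Degree.Derivation

/-!
# Slots and their independence
-/

set_option autoImplicit false
set_option linter.unusedSectionVars false

noncomputable section

universe u

open CategoryTheory AlgebraicGeometry
open scoped TensorProduct

namespace Fermat.Agent.AV

variable {K : Type u} [Field K] [IsAlgClosed K]

/-- Symmetrical functions together with generic translations. -/
structure Rig (X : AbVar K) (L₀ : Type u) [Field L₀] [Algebra K L₀] where
  ι : FFld X →ₐ[K] FFld X
  neg : Pt.map ι (genPt X) = -genPt X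
  U : Chart X
  hU : genericPoint X.carrier ∈ U.1
  s : Fin X.dim → Γ(X.carrier, U.1)
  sym : ∀ i, ι (germAlg U.1 hU (s i)) = germAlg U.1 hU (s i)
  e : Fin X.dim → Tan X K
  expand : ∀ (R : Type u) [CommRing R] [Algebra K R] (τ : Tan X R), ∃ c : Fin X.dim → R,
    τ = ∑ j, Tan.scale (c j) (Tan.mapHom (Algebra.ofId K R) (e j))
  a : Fin X.dim → Pt X L₀
  mem : ∀ i, (a i).Mem U.1
  det : (slotMat U s e a mem).det ≠ 0
  trdeg : ((X.dim * X.dim : ℕ) : Cardinal) ≤ Algebra.trdeg K L₀
  alg : ∀ E : IntermediateField K L₀, (∀ i, a i ∈ defPts X E) → Algebra.IsAlgebraic E L₀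
  gen : ∀ i, ∃ φ, Pt.map φ (genPt X) = a i

/-- Rigs exist. -/
theorem exists_rig (X : AbVar K) :
    ∃ (L₀ : Type u) (_ : Field L₀) (_ : Algebra K L₀) (_ : IsAlgClosed L₀),
      Nonempty (Rig X L₀) := by
  obtain ⟨ι, U, hU, p₀, hp, s, hι, hsym, hdetect⟩ := exists_symmetric_functions X
  obtain ⟨e, he, hexp⟩ := exists_tangent_basis X
  have hdet₀ : (slotMat U s e (fun _ => p₀) (fun _ => hp)).det ≠ 0 := by
    intro h
    obtain ⟨c, hc0, hc⟩ := Matrix.exists_mulVec_eq_zero_iff.mpr h
    refine hc0 (he c (hdetect _ fun i => ?_))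
    rw [← dHom_apply, map_sum]
    simp only [dHom_apply, dVal_scale]
    refine Eq.trans (Finset.sum_congr rfl fun j _ => ?_) (congrFun hc i)
    show c j * _ = dVal U hp (s i) (Tan.mapHom (Algebra.ofId K K) (e j)) * c j
    rw [Subsingleton.elim (Algebra.ofId K K) (AlgHom.id K K), Tan.mapHom_id, mul_comm]
  obtain ⟨L, i₁, i₂, i₃, a, h, hdet, htr, halg, hgen, -⟩ :=
    exists_stage X U s e p₀ hp hdet₀ X.dim le_rfl
  exact ⟨L, i₁, i₂, i₃, ⟨⟨ι, hι, U, hU, s, hsym, e, hexp, a, h, hdet, htr, halg,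
    fun i => hgen i i.2⟩⟩⟩

variable {X : AbVar K} {L₀ : Type u} [Field L₀] [Algebra K L₀]

/-! ### The ambient field -/

variable (X L₀) in
/-- Constant points. -/
abbrev cst : Pt X L₀ →+ Pt X (GenF X L₀) := Pt.map (IsScalarTower.toAlgHom K L₀ (GenF X L₀))

variable (X L₀) in
/-- The field of the generic point over the constants. -/
def Fq : IntermediateField L₀ (GenF X L₀) := IntermediateField.adjoin L₀ (Set.range (genHom X L₀))

theorem genHom_mem_Fq (f : FFld X) : genHom X L₀ f ∈ Fq X L₀ :=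
  IntermediateField.subset_adjoin L₀ _ ⟨f, rfl⟩

theorem genP_mem_defPts_of_forall {E : IntermediateField L₀ (GenF X L₀)}
    (h : ∀ f, genHom X L₀ f ∈ E) : genP X L₀ ∈ defPts X (E.restrictScalars K) :=
  mem_defPts_of_range_subset (genHom X L₀) h

theorem genP_mem_defPts : genP X L₀ ∈ defPts X ((Fq X L₀).restrictScalars K) :=
  genP_mem_defPts_of_forall (E := Fq X L₀) genHom_mem_Fq

theorem Fq_le {E : IntermediateField L₀ (GenF X L₀)}
    (h : genP X L₀ ∈ defPts X (E.restrictScalars K)) : Fq X L₀ ≤ E := by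
  refine IntermediateField.adjoin_le_iff.mpr ?_
  rintro _ ⟨f, rfl⟩
  exact range_subset_of_mem_defPts (genHom X L₀) h f

theorem cst_mem_defPts {L : Type u} [Field L] [Algebra L₀ L] [Algebra K L] [IsScalarTower K L₀ L]
    (E : IntermediateField L₀ L) (p : Pt X L₀) :
    Pt.map (IsScalarTower.toAlgHom K L₀ L) p ∈ defPts X (E.restrictScalars K) :=
  ⟨Pt.map ((IsScalarTower.toAlgHom K L₀ L).codRestrict (E.restrictScalars K).toSubalgebra
    fun c => E.algebraMap_mem c) p, by rw [Pt.map_map]; rfl⟩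

variable (X L₀) in
theorem exists_generators :
    ∃ S : Finset (GenF X L₀), (↑S ⊆ Set.range (genHom X L₀)) ∧
      Fq X L₀ = IntermediateField.adjoin L₀ (S : Set (GenF X L₀)) := by
  classical
  obtain ⟨V, hV⟩ := exists_generic_chart X
  obtain ⟨S, hS⟩ := (finiteType_sections X V).out
  refine ⟨S.image fun b => genHom X L₀ (germAlg V.1 hV b), ?_, le_antisymm ?_ ?_⟩
  · intro x hx
    obtain ⟨b, -, rfl⟩ := Finset.mem_image.mp hx
    exact ⟨_, rfl⟩
  · refine IntermediateField.adjoin_le_iff.mpr ?_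
    rintro _ ⟨f, rfl⟩
    set E := IntermediateField.adjoin L₀
      ((S.image fun b => genHom X L₀ (germAlg V.1 hV b) : Finset (GenF X L₀)) : Set (GenF X L₀))
    have hle : Algebra.adjoin K (S : Set Γ(X.carrier, V.1)) ≤
        (E.restrictScalars K).toSubalgebra.comap ((genHom X L₀).comp (germAlg V.1 hV)) :=
      Algebra.adjoin_le fun c hc =>
        IntermediateField.subset_adjoin L₀ _ (Finset.mem_coe.mpr (Finset.mem_image_of_mem _ hc))
    obtain ⟨a, b, -, rfl⟩ := exists_eq_germ_div V hV f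
    rw [map_div₀]
    exact div_mem (hle (hS.symm ▸ trivial : a ∈ _)) (hle (hS.symm ▸ trivial : b ∈ _))
  · refine IntermediateField.adjoin_le_iff.mpr fun x hx => ?_
    obtain ⟨b, -, rfl⟩ := Finset.mem_image.mp hx
    exact genHom_mem_Fq _

instance isAlgebraic_Fq : Algebra.IsAlgebraic (Fq X L₀) (GenF X L₀) :=
  ⟨fun z => GenF.isAlgebraic_of_subset L₀ (Fq X L₀).toSubfield
    (fun c => (Fq X L₀).algebraMap_mem c) genHom_mem_Fq z⟩

variable (X L₀) in
theorem trdeg_genF_le : Algebra.trdeg L₀ (GenF X L₀) ≤ X.dim := by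
  obtain ⟨t, ht⟩ := exists_isTranscendenceBasis K (FFld X)
  have hcard : Cardinal.mk (genHom X L₀ '' t) ≤ X.dim :=
    Cardinal.mk_image_le.trans_eq (ht.cardinalMk_eq_trdeg.trans (trdeg_functionField X))
  set C : IntermediateField L₀ (GenF X L₀) :=
    (algebraicClosure (IntermediateField.adjoin L₀ (genHom X L₀ '' t))
      (GenF X L₀)).restrictScalars L₀
  have hF : Fq X L₀ ≤ C := by
    refine IntermediateField.adjoin_le_iff.mpr ?_
    rintro _ ⟨f, rfl⟩
    have h1 : Algebra.IsAlgebraic (IntermediateField.adjoin K (Set.range ((↑) : t → FFld X)))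
        (FFld X) := ht.isAlgebraic_field
    rw [Subtype.range_coe] at h1
    let i : IntermediateField.adjoin K t →+*
        IntermediateField.adjoin L₀ (genHom X L₀ '' t) :=
      ((genHom X L₀).toRingHom.comp (IntermediateField.adjoin K t).val.toRingHom).codRestrict _
        fun w => by
          have hle : (IntermediateField.adjoin K t).map (genHom X L₀) ≤
              (IntermediateField.adjoin L₀ (genHom X L₀ '' t)).restrictScalars K := by
            rw [IntermediateField.adjoin_map, IntermediateField.adjoin_le_iff]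
            exact IntermediateField.subset_adjoin L₀ _
          exact hle ⟨w, w.2, rfl⟩
    exact mem_algebraicClosure_iff.mpr ((h1.isAlgebraic f).ringHom_of_comp_eq i
      (genHom X L₀).toRingHom i.injective (RingHom.ext fun _ => rfl))
  have halg : ∀ z : GenF X L₀,
      IsAlgebraic (IntermediateField.adjoin L₀ (genHom X L₀ '' t)) z := by
    set E := IntermediateField.adjoin L₀ (genHom X L₀ '' t)
    have : Algebra.IsAlgebraic (algebraicClosure E (GenF X L₀)) (GenF X L₀) := ⟨fun z =>
      GenF.isAlgebraic_of_subset L₀ (algebraicClosure E (GenF X L₀)).toSubfield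
        (fun c => C.algebraMap_mem c) (fun f => hF (genHom_mem_Fq f)) z⟩
    exact (Algebra.IsAlgebraic.trans E (algebraicClosure E (GenF X L₀)) (GenF X L₀)).isAlgebraic
  refine le_trans ?_ hcard
  have h := trdeg_le_of_isAlgebraic (⊤ : IntermediateField L₀ (GenF X L₀)) _ fun z _ => halg z
  rwa [IntermediateField.topEquiv.trdeg_eq] at h

namespace Rig

variable (r : Rig X L₀)

/-- The slot `N • Q + aᵢ`. -/
def slot (N : ℕ) (i : Fin X.dim) : Pt X (GenF X L₀) := N • genP X L₀ + cst X L₀ (r.a i)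

variable [IsAlgClosed L₀]

theorem slot_mem_and_det (N : Fin X.dim → ℕ) :
    ∃ h : ∀ i, (r.slot (N i) i).Mem r.U.1,
      (slotMat r.U r.s r.e (fun i => r.slot (N i) i) h).det ≠ 0 := by
  obtain ⟨v, hv⟩ := exists_place_genP X L₀ (0 : Pt X L₀)
  refine det_slotMat_ne_zero_of_spec r.U r.s r.e v _ r.a (fun i => ?_) r.mem r.det
  rw [slot, map_add, map_nsmul, hv, smul_zero, zero_add, v.spec_map_const]

theorem slot_mem (N : ℕ) (i : Fin X.dim) : (r.slot N i).Mem r.U.1 :=
  (r.slot_mem_and_det fun _ => N).choose i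

/-- The function `xᵢ` at a slot. -/
def z (N : ℕ) (i : Fin X.dim) : GenF X L₀ := (r.slot N i).eval r.U (r.slot_mem N i) (r.s i)

/-- A slot is generic over `K`. -/
theorem exists_slotHom (N : ℕ) (i : Fin X.dim) :
    ∃ φ : FFld X →ₐ[K] GenF X L₀, Pt.map φ (genPt X) = r.slot N i := by
  refine exists_map_genPt _ r.U (r.slot_mem N i) ((injective_iff_map_eq_zero _).mpr fun b hb => ?_)
  obtain ⟨v, hv⟩ := exists_place_genP X L₀ (0 : Pt X L₀)
  have hs : v.spec (r.slot N i) = r.a i := by
    rw [slot, map_add, map_nsmul, hv, smul_zero, zero_add, v.spec_map_const]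
  have hm : (v.spec (r.slot N i)).Mem r.U.1 := hs.symm ▸ r.mem i
  obtain ⟨hb', he⟩ := v.eval_mem_and_value hm b
  rw [Pt.eval_congr_left r.U hs hm (r.mem i),
    show (⟨_, hb'⟩ : v.ring) = 0 from Subtype.ext hb, map_zero] at he
  obtain ⟨φ, hφ⟩ := r.gen i
  have h2 := AlgHom.congr_fun (Pt.eval_map φ (genPt X) r.U (genPt_mem r.U r.hU)) b
  rw [Pt.eval_congr_left r.U hφ ((genPt_mem r.U r.hU).map φ) (r.mem i), ← he, AlgHom.comp_apply,
    genPt_eval r.U r.hU, eq_comm, map_eq_zero_iff φ φ.injective] at h2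
  exact (map_eq_zero_iff _ (germAlg_injective _ _)).mp h2

theorem slotHom_x {N : ℕ} {i : Fin X.dim} {φ : FFld X →ₐ[K] GenF X L₀}
    (hφ : Pt.map φ (genPt X) = r.slot N i) : φ (germAlg r.U.1 r.hU (r.s i)) = r.z N i := by
  have h := AlgHom.congr_fun (Pt.eval_map φ (genPt X) r.U (genPt_mem r.U r.hU)) (r.s i)
  rw [Pt.eval_congr_left r.U hφ ((genPt_mem r.U r.hU).map φ) (r.slot_mem N i), AlgHom.comp_apply,
    genPt_eval r.U r.hU] at h
  exact h.symm

theorem slot_mem_defPts {E : IntermediateField L₀ (GenF X L₀)}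
    (h : genP X L₀ ∈ defPts X (E.restrictScalars K)) (N : ℕ) (i : Fin X.dim) :
    r.slot N i ∈ defPts X (E.restrictScalars K) :=
  add_mem (nsmul_mem h N) (cst_mem_defPts E (r.a i))

theorem z_mem {E : IntermediateField L₀ (GenF X L₀)} {N : ℕ} {i : Fin X.dim}
    (h : r.slot N i ∈ defPts X (E.restrictScalars K)) : r.z N i ∈ E :=
  eval_mem_of_mem_defPts h (r.slot_mem N i) (r.s i)

/-- The field of the slot values. -/
def zFld (N : Fin X.dim → ℕ) : IntermediateField L₀ (GenF X L₀) :=
  IntermediateField.adjoin L₀ (Set.range fun i => r.z (N i) i)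

theorem zFld_le (N : Fin X.dim → ℕ) : r.zFld N ≤ Fq X L₀ := by
  refine IntermediateField.adjoin_le_iff.mpr ?_
  rintro _ ⟨i, rfl⟩
  exact r.z_mem (r.slot_mem_defPts genP_mem_defPts _ _)

/-- Over a field containing the slot values, derivations vanish on the generic point. -/
theorem finite_separable_adjoin (N : Fin X.dim → ℕ) (hN : ∀ i, (N i : K) ≠ 0)
    (E₀ : IntermediateField L₀ (GenF X L₀)) (hz : ∀ i, r.z (N i) i ∈ E₀) (S : Finset (GenF X L₀))
    (hS : (↑S : Set (GenF X L₀)) ⊆ Set.range (genHom X L₀))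
    (hgen : ∀ f, genHom X L₀ f ∈ IntermediateField.adjoin E₀ (S : Set (GenF X L₀))) :
    FiniteDimensional E₀ (IntermediateField.adjoin E₀ (S : Set (GenF X L₀))) ∧
      Algebra.IsSeparable E₀ (IntermediateField.adjoin E₀ (S : Set (GenF X L₀))) := by
  set G := IntermediateField.adjoin E₀ (S : Set (GenF X L₀))
  have : Algebra.EssFiniteType E₀ G := IntermediateField.essFiniteType_iff.mpr
    (IntermediateField.fg_adjoin_of_finite S.finite_toSet)
  refine finite_separable_of_derivation fun δ => ?_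
  let _ : Algebra K E₀ := ((algebraMap L₀ E₀).comp (algebraMap K L₀)).toAlgebra
  have : IsScalarTower K L₀ E₀ := IsScalarTower.of_algebraMap_eq fun _ => rfl
  have : IsScalarTower K E₀ (GenF X L₀) := IsScalarTower.of_algebraMap_eq fun c =>
    IsScalarTower.algebraMap_apply K L₀ (GenF X L₀) c
  have : IsScalarTower K E₀ G := IsScalarTower.of_algebraMap_eq fun c => Subtype.ext (
    IsScalarTower.algebraMap_apply K E₀ (GenF X L₀) c)
  have : IsScalarTower K L₀ G := IsScalarTower.of_algebraMap_eq fun c => Subtype.ext (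
    IsScalarTower.algebraMap_apply K L₀ (GenF X L₀) c)
  have : IsScalarTower K G (GenF X L₀) := IsScalarTower.of_algebraMap_eq fun _ => rfl
  let v : G →ₐ[K] GenF X L₀ := IsScalarTower.toAlgHom K G (GenF X L₀)
  let h₀ : FFld X →ₐ[K] G :=
    { toFun := fun f => ⟨genHom X L₀ f, hgen f⟩
      map_one' := Subtype.ext (map_one _)
      map_mul' := fun a b => Subtype.ext (map_mul _ a b)
      map_zero' := Subtype.ext (map_zero _)
      map_add' := fun a b => Subtype.ext (map_add _ a b)
      commutes' := fun c => Subtype.ext ((genHom X L₀).commutes c) }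
  let c₀ : L₀ →ₐ[K] G := IsScalarTower.toAlgHom K L₀ G
  let Q : Pt X G := Pt.map h₀ (genPt X)
  let y : Fin X.dim → Pt X G := fun i => N i • Q + Pt.map c₀ (r.a i)
  have hy : ∀ i, Pt.map v (y i) = r.slot (N i) i := fun i => by
    rw [map_add, map_nsmul, Pt.map_map, Pt.map_map]
    rfl
  have hmy : ∀ i, (y i).Mem r.U.1 := fun i =>
    Pt.mem_of_map_field (φ := v) ((hy i).symm ▸ r.slot_mem (N i) i)
  have hdet : (slotMat r.U r.s r.e y hmy).det ≠ 0 := by
    obtain ⟨hm, hd⟩ := r.slot_mem_and_det N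
    rw [← slotMat_congr r.U r.s r.e (funext hy) (fun i => (hmy i).map v), slotMat_map r.U r.s r.e v y hmy,
      ← AlgHom.mapMatrix_apply, ← AlgHom.map_det] at hd
    exact fun h => hd (by rw [h, map_zero])
  let δK : Derivation K G G := δ.restrictScalars K
  have hτ : derTan X δK Q = 0 := by
    refine eq_zero_of_det_ne_zero r.U r.s r.e r.expand y hmy hdet _ fun i => ?_
    have h1 : derTan X δK (y i) = N i • derTan X δK Q := by
      rw [map_add, map_nsmul, derTan_map_of_eq_zero δK c₀, add_zero]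
      intro c
      show δ (algebraMap L₀ G c) = 0
      rw [IsScalarTower.algebraMap_apply L₀ E₀ G, δ.map_algebraMap]
    have hz := hz i
    have h2 : dVal r.U (hmy i) (r.s i) (derTan X δK (y i)) = 0 := by
      rw [dVal_derTan δK r.U (hmy i)]
      have h3 : (y i).eval r.U (hmy i) (r.s i) = algebraMap E₀ G ⟨_, hz⟩ := by
        refine Subtype.ext ?_
        have h4 := AlgHom.congr_fun (Pt.eval_map v (y i) r.U (hmy i)) (r.s i)
        rw [Pt.eval_congr_left r.U (hy i) ((hmy i).map v) (r.slot_mem (N i) i)] at h4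
        exact h4.symm
      rw [h3]
      exact δ.map_algebraMap _
    rw [h1, dVal_nsmul] at h2
    exact (mul_eq_zero.mp h2).resolve_left fun h => hN i ((algebraMap K G).injective (by
      rw [map_natCast, map_zero]; exact h))
  have hh₀ : ∀ f, δ (h₀ f) = 0 := by
    obtain ⟨V, hV⟩ := exists_generic_chart X
    have hQ : Q.Mem V.1 := (genPt_mem V hV).map h₀
    have hb : ∀ b, δ (h₀ (germAlg V.1 hV b)) = 0 := fun b => by
      have h1 := dVal_derTan δK V hQ b
      rw [hτ, ← dHom_apply, map_zero] at h1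
      have h2 : Q.eval V hQ b = h₀ (germAlg V.1 hV b) := by
        rw [Pt.eval_map h₀ (genPt X) V (genPt_mem V hV), genPt_eval V hV]; rfl
      rw [h2] at h1
      exact h1.symm
    intro f
    obtain ⟨a, b, -, rfl⟩ := exists_eq_germ_div V hV f
    rw [map_div₀, δ.leibniz_div, hb, hb]
    simp
  refine derivation_eq_zero_of_adjoin _ δ fun z hz' => ?_
  obtain ⟨f, hf⟩ := hS hz'
  exact (congrArg δ (Subtype.ext hf.symm : z = h₀ f)).trans (hh₀ f)

/-- The slot values separate the field of the generic point. -/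
theorem finite_separable (N : Fin X.dim → ℕ) (hN : ∀ i, (N i : K) ≠ 0) :
    FiniteDimensional (r.zFld N) (IntermediateField.extendScalars (r.zFld_le N)) ∧
      Algebra.IsSeparable (r.zFld N) (IntermediateField.extendScalars (r.zFld_le N)) := by
  obtain ⟨S, hSr, hS⟩ := exists_generators X L₀
  have hG : IntermediateField.extendScalars (r.zFld_le N) =
      IntermediateField.adjoin (r.zFld N) (S : Set (GenF X L₀)) := by
    refine IntermediateField.restrictScalars_injective L₀ ?_
    rw [IntermediateField.extendScalars_restrictScalars,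
      IntermediateField.restrictScalars_adjoin_eq_sup, ← hS]
    exact (sup_eq_right.mpr (r.zFld_le N)).symm
  rw [hG]
  refine r.finite_separable_adjoin N hN (r.zFld N) (fun i => IntermediateField.subset_adjoin L₀
    (Set.range fun j => r.z (N j) j) ⟨i, rfl⟩) S hSr fun f => ?_
  rw [← hG]
  exact (IntermediateField.mem_extendScalars (r.zFld_le N)).mpr (genHom_mem_Fq f)

/-- The slot values form a transcendence basis over the constants. -/
theorem isTranscendenceBasis_z (N : Fin X.dim → ℕ) (hN : ∀ i, (N i : K) ≠ 0) :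
    IsTranscendenceBasis L₀ fun i => r.z (N i) i := by
  obtain ⟨hfin, -⟩ := r.finite_separable N hN
  set E₀ := r.zFld N
  have halg : Algebra.IsAlgebraic E₀ (GenF X L₀) := by
    set G := IntermediateField.extendScalars (r.zFld_le N)
    have : Algebra.IsAlgebraic E₀ G := Algebra.IsAlgebraic.of_finite _ _
    have : Algebra.IsAlgebraic G (GenF X L₀) := ⟨fun z => by
      exact GenF.isAlgebraic_of_subset L₀ G.toSubfield
        (fun c => (Fq X L₀).algebraMap_mem c) genHom_mem_Fq z⟩
    exact Algebra.IsAlgebraic.trans E₀ G (GenF X L₀)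
  have : Algebra.IsAlgebraic (Algebra.adjoin L₀ (Set.range fun i => r.z (N i) i)) (GenF X L₀) :=
    IntermediateField.isAlgebraic_adjoin_iff_top.mp halg
  refine Algebra.IsAlgebraic.isTranscendenceBasis_of_lift_le_trdeg_of_finite L₀
    (fun i => r.z (N i) i) ?_
  simpa using dim_le_trdeg_genF (X := X) L₀

end Rig

end Fermat.Agent.AV
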